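import Fermat.Agent.Weinberger.Units
import Fermat.Agent.IsogenyNF.CyclotomicLevelNF
import Mathlib.NumberTheory.NumberField.Discriminant.Different

/-!
# The fields `H(ζ_m, ε ^ (1/s))`

`H/K` is abelian, `ε` a unit of `K` that is no prime power and `s ∣ m` is squarefree, with no
nontrivial `q`-th root of unity in `K` for `q ∣ s`. Then `[H(ζ_m, ε ^ (1/s)) : H(ζ_m)] = s`, the
discriminant divides a power of `m` times one of `d_H`, and one more prime `q ∤ m d_H` multiplies
the degree by at least `q (q - 1)`.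
-/

set_option autoImplicit false
set_option linter.style.haveILetI false

noncomputable section

open Polynomial NumberField IntermediateField
open scoped Classical

namespace FA.Weinberger

variable {K : Type} [Field K] [NumberField K] (H : Type) [Field H] [NumberField H] [Algebra K H]

/-- The splitting field over `H` of `(X ^ m - 1) (X ^ s - ε)`. -/
abbrev MixH (ε : K) (m s : ℕ) : Type :=
  ((X ^ m - 1) * (X ^ s - C (algebraMap K H ε)) : H[X]).SplittingField

instance mixH_numberField (ε : K) (m s : ℕ) : NumberField (MixH H ε m s) :=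
  NumberField.of_module_finite H _

instance mixH_splitting (ε : K) (m s : ℕ) :
    IsSplittingField H (MixH H ε m s) ((X ^ m - 1) * (X ^ s - C (algebraMap K H ε))) := by
  convert Polynomial.IsSplittingField.splittingField
    ((X ^ m - 1) * (X ^ s - C (algebraMap K H ε)) : H[X]) using 2

instance mixH_isGalois [IsGalois K H] (ε : K) (m s : ℕ) [NeZero m] [NeZero s] :
    IsGalois K (MixH H ε m s) := by
  obtain ⟨f, hfsep, hf⟩ := IsGalois.is_separable_splitting_field K H
  have hg : ((X ^ m - 1) * (X ^ s - C ε) : K[X]) ≠ 0 :=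
    mul_ne_zero (by simpa using X_pow_sub_C_ne_zero (R := K) (NeZero.pos m) 1)
      (X_pow_sub_C_ne_zero (NeZero.pos s) _)
  haveI : IsSplittingField H (MixH H ε m s)
      (((X ^ m - 1) * (X ^ s - C ε) : K[X]).map (algebraMap K H)) := by
    convert mixH_splitting H ε m s using 2
    simp only [Polynomial.map_mul, Polynomial.map_sub, Polynomial.map_pow, Polynomial.map_X,
      Polynomial.map_one, Polynomial.map_C]
  haveI : IsSplittingField K (MixH H ε m s) (f * ((X ^ m - 1) * (X ^ s - C ε))) :=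
    IsSplittingField.mul (K := H) (MixH H ε m s) f _ hfsep.ne_zero hg
  haveI := Normal.of_isSplittingField (E := MixH H ε m s) (f * ((X ^ m - 1) * (X ^ s - C ε)))
  exact ⟨⟩

variable {H} {ε : K} {m s : ℕ} [NeZero m] [NeZero s] {L : Type} [Field L] [NumberField L]
  [Algebra K L] [Algebra H L] [IsScalarTower K H L]

omit [NumberField K] [NumberField H] [NumberField L] in
/-- The generators. -/
theorem exists_mixH_gens [IsSplittingField H L ((X ^ m - 1) * (X ^ s - C (algebraMap K H ε)))]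
    [CharZero L] (hε : ε ≠ 0) (hsm : s ∣ m) :
    ∃ ζ α : L, IsPrimitiveRoot ζ m ∧ α ^ s = algebraMap K L ε ∧
      IntermediateField.adjoin H {ζ, α} = ⊤ := by
  obtain ⟨f, hf⟩ : ∃ f : H[X], f = (X ^ m - 1) * (X ^ s - C (algebraMap K H ε)) := ⟨_, rfl⟩
  have hm0 : (X ^ m - 1 : H[X]) ≠ 0 := by
    simpa using X_pow_sub_C_ne_zero (R := H) (NeZero.pos m) 1
  have hf0 : f ≠ 0 := hf ▸ mul_ne_zero hm0 (X_pow_sub_C_ne_zero (NeZero.pos s) _)
  have hsplit : (f.map (algebraMap H L)).Splits := by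
    rw [hf]
    exact IsSplittingField.splits L ((X ^ m - 1) * (X ^ s - C (algebraMap K H ε)))
  have hmap : f.map (algebraMap H L) ≠ 0 :=
    (Polynomial.map_ne_zero_iff (algebraMap H L).injective).2 hf0
  have hz : ((cyclotomic m H).map (algebraMap H L)).Splits :=
    hsplit.of_dvd hmap (Polynomial.map_dvd _ (by
      rw [hf]
      exact (cyclotomic.dvd_X_pow_sub_one m H).trans (dvd_mul_right _ _)))
  obtain ⟨ζ, hζ0⟩ := hz.exists_eval_eq_zero (by
    rw [degree_map, degree_cyclotomic, Ne, Nat.cast_eq_zero]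
    exact (Nat.totient_pos.2 (NeZero.pos m)).ne')
  rw [map_cyclotomic] at hζ0
  have hζ : IsPrimitiveRoot ζ m := isRoot_cyclotomic_iff.1 hζ0
  have hk : ((X ^ s - C (algebraMap K H ε)).map (algebraMap H L)).Splits :=
    hsplit.of_dvd hmap (Polynomial.map_dvd _ (by rw [hf]; exact dvd_mul_left _ _))
  obtain ⟨α, hα0⟩ := hk.exists_eval_eq_zero (by
    rw [degree_map, degree_X_pow_sub_C (NeZero.pos s), Ne, Nat.cast_eq_zero]
    exact NeZero.ne s)
  have hα : α ^ s = algebraMap K L ε := by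
    simpa [eval_map, sub_eq_zero, ← IsScalarTower.algebraMap_apply] using hα0
  have he0 : algebraMap K L ε ≠ 0 := by simpa using hε
  have hα0' : α ≠ 0 := fun e => he0 (by rw [← hα, e, zero_pow (NeZero.ne s)])
  refine ⟨ζ, α, hζ, hα, IntermediateField.toSubalgebra_injective ?_⟩
  rw [IntermediateField.top_toSubalgebra, eq_top_iff,
    ← IsSplittingField.adjoin_rootSet L ((X ^ m - 1) * (X ^ s - C (algebraMap K H ε))),
    Algebra.adjoin_le_iff]
  intro r hr
  obtain ⟨-, hr⟩ := mem_rootSet.1 hr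
  rw [map_mul, mul_eq_zero, map_sub, map_sub, map_pow, map_pow, aeval_X, map_one, aeval_C,
    sub_eq_zero, sub_eq_zero, ← IsScalarTower.algebraMap_apply] at hr
  rcases hr with hr | hr
  · obtain ⟨i, -, hi⟩ := hζ.eq_pow_of_pow_eq_one (ξ := r) hr
    rw [← hi]
    exact pow_mem (IntermediateField.subset_adjoin H _ (by simp)) i
  · have hrα : (r / α) ^ s = 1 := by rw [div_pow, hr, hα, div_self he0]
    obtain ⟨i, -, hi⟩ := hζ.eq_pow_of_pow_eq_one (ξ := r / α)
      (orderOf_dvd_iff_pow_eq_one.1 ((orderOf_dvd_of_pow_eq_one hrα).trans hsm))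
    rw [show r = ζ ^ i * α by rw [hi, div_mul_cancel₀ _ hα0']]
    exact mul_mem (pow_mem (IntermediateField.subset_adjoin H _ (by simp)) i)
      (IntermediateField.subset_adjoin H _ (by simp))

variable [IsGalois K H] [IsGalois K L] {ζ α : L}

omit [NeZero s] [NumberField K] [NumberField H] [NumberField L] [IsGalois K L] in
/-- The group commutes on `H(ζ)`. -/
theorem commOn_of_mem_adjoin (hab : ∀ g h : H ≃ₐ[K] H, g * h = h * g) (hζ : IsPrimitiveRoot ζ m)
    {x : L} (hx : x ∈ IntermediateField.adjoin H {ζ}) : CommOn (K := K) x := fun g h => by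
  induction hx using IntermediateField.adjoin_induction with
  | mem r hr =>
    rw [Set.mem_singleton_iff] at hr
    obtain ⟨i, -, hi⟩ := hζ.eq_pow_of_pow_eq_one (ξ := g ζ)
      (by rw [← map_pow, hζ.pow_eq_one, map_one])
    obtain ⟨j, -, hj⟩ := hζ.eq_pow_of_pow_eq_one (ξ := h ζ)
      (by rw [← map_pow, hζ.pow_eq_one, map_one])
    rw [hr, ← hi, ← hj, map_pow, map_pow, ← hi, ← hj, ← pow_mul, ← pow_mul, mul_comm]
  | algebraMap y =>
    simp only [← AlgEquiv.restrictNormal_commutes]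
    exact congrArg (algebraMap H L)
      (AlgEquiv.congr_fun (hab (g.restrictNormal H) (h.restrictNormal H)) y)
  | add r t _ _ e1 e2 => simp only [map_add, e1, e2]
  | inv r _ e1 => simp only [map_inv₀, e1]
  | mul r t _ _ e1 e2 => simp only [map_mul, e1, e2]

/-- **The degree over `H(ζ)`.** -/
theorem finrank_adjoin_root (hab : ∀ g h : H ≃ₐ[K] H, g * h = h * g) (hε : ε ≠ 0)
    (hpow : ∀ q : ℕ, q.Prime → ∀ β : K, β ^ q ≠ ε) (hs : Squarefree s)
    (hμ : ∀ q : ℕ, q.Prime → q ∣ s → ∀ x : K, x ^ q = 1 → x = 1)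
    (hζ : IsPrimitiveRoot ζ m) (hα : α ^ s = algebraMap K L ε)
    (htop : IntermediateField.adjoin H {ζ, α} = ⊤) :
    Module.finrank (IntermediateField.adjoin H {ζ}) L = s := by
  obtain ⟨M, hM⟩ : ∃ M : IntermediateField H L, M = IntermediateField.adjoin H {ζ} := ⟨_, rfl⟩
  rw [← hM]
  have htopM : IntermediateField.adjoin M {α} = ⊤ := by
    apply IntermediateField.restrictScalars_injective H
    rw [IntermediateField.restrictScalars_top, eq_top_iff, ← htop, IntermediateField.adjoin_le_iff]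
    intro r hr
    rcases hr with rfl | hr
    · rw [SetLike.mem_coe, IntermediateField.mem_restrictScalars]
      exact IntermediateField.algebraMap_mem _
        (⟨r, hM ▸ IntermediateField.mem_adjoin_simple_self H r⟩ : M)
    · rw [Set.mem_singleton_iff] at hr
      rw [hr, SetLike.mem_coe, IntermediateField.mem_restrictScalars]
      exact IntermediateField.mem_adjoin_simple_self M α
  obtain ⟨e, he⟩ : ∃ e : M, algebraMap M L e = algebraMap K L ε :=
    ⟨algebraMap H M (algebraMap K H ε), by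
      rw [← IsScalarTower.algebraMap_apply, ← IsScalarTower.algebraMap_apply]⟩
  have hint : IsIntegral M α := Algebra.IsIntegral.isIntegral α
  have hle : Module.finrank M L ≤ s := by
    rw [← finrank_top', ← htopM, IntermediateField.adjoin.finrank hint]
    refine le_of_le_of_eq (natDegree_le_of_dvd (minpoly.dvd M α (p := X ^ s - C e) ?_)
      (X_pow_sub_C_ne_zero (NeZero.pos s) _)) natDegree_X_pow_sub_C
    simp [hα, ← he]
  refine le_antisymm hle (Nat.le_of_dvd Module.finrank_pos ?_)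
  refine (Nat.prod_primeFactors_of_squarefree hs).symm.dvd.trans ?_
  refine Finset.prod_primes_dvd _
    (fun q hq => Nat.prime_iff.1 (Nat.prime_of_mem_primeFactors hq)) fun q hq => ?_
  obtain ⟨hqp, ⟨j, hj⟩, -⟩ := Nat.mem_primeFactors.1 hq
  have hirr := X_pow_sub_C_irreducible_of_prime hqp (a := e) fun b hb =>
    not_pow_of_commOn (L := L) hε hqp (hμ q hqp ⟨j, hj⟩) (hpow q hqp) (β := algebraMap M L b)
      (commOn_of_mem_adjoin hab hζ (hM ▸ b.2)) (by rw [← map_pow, hb, he])
  have hmin : minpoly M (α ^ j) = X ^ q - C e :=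
    (minpoly.eq_of_irreducible_of_monic hirr
      (by simp [← pow_mul, mul_comm j q, ← hj, hα, ← he])
      (monic_X_pow_sub_C _ hqp.ne_zero)).symm
  have := minpoly.degree_dvd (K := M) (Algebra.IsIntegral.isIntegral (α ^ j))
  rwa [hmin, natDegree_X_pow_sub_C] at this

omit [NumberField K] in
/-- The discriminant of a simple extension. -/
theorem natAbs_discr_dvd_of_gen {B E : Type} [Field B] [NumberField B] [Field E] [NumberField E]
    [Algebra B E] {x : 𝓞 E} (htop : Algebra.adjoin B {(x : E)} = ⊤) {g : (𝓞 B)[X]}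
    (hg : aeval x g = 0) :
    (discr E).natAbs ∣ (Algebra.norm ℤ (aeval x (derivative g))).natAbs *
      (discr B).natAbs ^ Module.finrank B E := by
  obtain ⟨r, hr⟩ : minpoly (𝓞 B) x ∣ g :=
    minpoly.isIntegrallyClosed_dvd (Algebra.IsIntegral.isIntegral x) hg
  have hmem : aeval x (derivative g) ∈ differentIdeal (𝓞 B) (𝓞 E) := by
    rw [hr, derivative_mul, map_add, map_mul, map_mul, minpoly.aeval, zero_mul, add_zero]
    exact Ideal.mul_mem_right _ _ (aeval_derivative_mem_differentIdeal (𝓞 B) B E x htop)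
  rw [natAbs_discr_eq_absNorm_differentIdeal_mul_natAbs_discr_pow B (𝓞 B) E (𝓞 E)]
  refine mul_dvd_mul_right ?_ _
  rw [← Ideal.absNorm_span_singleton]
  exact Ideal.absNorm_dvd_absNorm_of_le ((Ideal.span_singleton_le_iff_mem _).2 hmem)

theorem natAbs_norm_natCast_mul {E : Type} [Field E] [NumberField E] (c : ℕ) {x : 𝓞 E}
    (hx : IsUnit x) :
    (Algebra.norm ℤ ((c : 𝓞 E) * x)).natAbs = c ^ Module.finrank ℚ E := by
  rw [map_mul, Int.natAbs_mul, Int.isUnit_iff_natAbs_eq.1 (hx.map (Algebra.norm ℤ)), mul_one,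
    ← map_natCast (algebraMap ℤ (𝓞 E)), Algebra.norm_algebraMap, RingOfIntegers.rank,
    Int.natAbs_pow, Int.natAbs_natCast]

omit [IsGalois K H] [IsGalois K L] [NumberField K] in
/-- **The discriminant.** -/
theorem natAbs_discr_mix_dvd {e : (𝓞 K)ˣ} (he : ((e : 𝓞 K) : K) = ε)
    (hζ : IsPrimitiveRoot ζ m) (hα : α ^ s = algebraMap K L ε)
    (htop : IntermediateField.adjoin H {ζ, α} = ⊤) :
    (discr L).natAbs ∣ s ^ Module.finrank ℚ L * m ^ Module.finrank ℚ L *
      (discr H).natAbs ^ Module.finrank H L := by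
  obtain ⟨M, hM⟩ : ∃ M : IntermediateField H L, M = IntermediateField.adjoin H {ζ} := ⟨_, rfl⟩
  have htopM : IntermediateField.adjoin M {α} = ⊤ := by
    apply IntermediateField.restrictScalars_injective H
    rw [IntermediateField.restrictScalars_top, eq_top_iff, ← htop, IntermediateField.adjoin_le_iff]
    intro r hr
    rcases hr with rfl | hr
    · rw [SetLike.mem_coe, IntermediateField.mem_restrictScalars]
      exact IntermediateField.algebraMap_mem _
        (⟨r, hM ▸ IntermediateField.mem_adjoin_simple_self H r⟩ : M)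
    · rw [Set.mem_singleton_iff] at hr
      rw [hr, SetLike.mem_coe, IntermediateField.mem_restrictScalars]
      exact IntermediateField.mem_adjoin_simple_self M α
  -- `L` over `M`
  obtain ⟨x, hx⟩ : ∃ x : 𝓞 L, (x : L) = α :=
    ⟨⟨α, IsIntegral.of_pow (NeZero.pos s) (by
      rw [hα, ← he]; exact (RingOfIntegers.isIntegral_coe _).algebraMap)⟩, rfl⟩
  have hxs : x ^ s = algebraMap (𝓞 K) (𝓞 L) e := RingOfIntegers.ext (by
    show algebraMap (𝓞 L) L (x ^ s) = algebraMap (𝓞 L) L (algebraMap (𝓞 K) (𝓞 L) e)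
    rw [← IsScalarTower.algebraMap_apply (𝓞 K) (𝓞 L) L,
      IsScalarTower.algebraMap_apply (𝓞 K) K L]
    exact (map_pow (algebraMap (𝓞 L) L) x s).trans
      ((congrArg (· ^ s) hx).trans (hα.trans (congrArg _ he.symm))))
  have hxu : IsUnit x := (isUnit_pow_iff (NeZero.ne s)).1 (hxs ▸ e.isUnit.map _)
  obtain ⟨eM, heM'⟩ : ∃ eM : 𝓞 M, ((eM : M) : L) = algebraMap K L ε :=
    ⟨⟨⟨algebraMap K L ε, by
      rw [IsScalarTower.algebraMap_apply K H L]; exact IntermediateField.algebraMap_mem _ _⟩,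
      (isIntegral_algHom_iff ((IntermediateField.val M).restrictScalars ℤ)
        Subtype.val_injective).1 (by
          show IsIntegral ℤ (algebraMap K L ε)
          rw [← he]; exact (RingOfIntegers.isIntegral_coe _).algebraMap)⟩, rfl⟩
  have heM : algebraMap (𝓞 M) (𝓞 L) eM = algebraMap (𝓞 K) (𝓞 L) e := RingOfIntegers.ext (by
    refine heM'.trans ?_
    rw [← he, ← IsScalarTower.algebraMap_apply (𝓞 K) K L,
      IsScalarTower.algebraMap_apply (𝓞 K) (𝓞 L) L])
  have h1 := natAbs_discr_dvd_of_gen (B := M) (x := x) (g := X ^ s - C eM)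
    (by rw [hx, ← IntermediateField.adjoin_simple_toSubalgebra_of_isAlgebraic
      (Algebra.IsAlgebraic.isAlgebraic α), htopM, IntermediateField.top_toSubalgebra])
    (by simp [hxs, heM])
  rw [show aeval x (derivative (X ^ s - C eM)) = (s : 𝓞 L) * x ^ (s - 1) by simp [derivative_pow],
    natAbs_norm_natCast_mul s (hxu.pow _)] at h1
  -- `M` over `H`
  obtain ⟨z, hz⟩ : ∃ z : 𝓞 M, ((z : M) : L) = ζ :=
    ⟨⟨⟨ζ, hM ▸ IntermediateField.mem_adjoin_simple_self H ζ⟩, (isIntegral_algHom_iff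
      ((IntermediateField.val M).restrictScalars ℤ) Subtype.val_injective).1
        (hζ.isIntegral (NeZero.pos m))⟩, rfl⟩
  have hzm : z ^ m = 1 := by
    have h := (congrArg (· ^ m) hz).trans hζ.pow_eq_one
    exact RingOfIntegers.ext (Subtype.ext (by simpa using h))
  have hzu : IsUnit z := IsUnit.of_pow_eq_one hzm (NeZero.ne m)
  have hgen : Algebra.adjoin H {(z : M)} = ⊤ := by
    rw [← IntermediateField.adjoin_simple_toSubalgebra_of_isAlgebraic
      (Algebra.IsAlgebraic.isAlgebraic (z : M)), ← IntermediateField.top_toSubalgebra]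
    refine congrArg _ (IntermediateField.lift_injective M ?_)
    rw [IntermediateField.lift_adjoin_simple, IntermediateField.lift_top]
    exact (congrArg (fun t => IntermediateField.adjoin H {t}) hz).trans hM.symm
  have h2 := natAbs_discr_dvd_of_gen (B := H) (x := z) (g := X ^ m - 1) hgen (by simp [hzm])
  rw [show aeval z (derivative (X ^ m - 1 : (𝓞 H)[X])) = (m : 𝓞 M) * z ^ (m - 1) by
    simp [derivative_pow], natAbs_norm_natCast_mul m (hzu.pow _)] at h2
  refine h1.trans ?_
  rw [mul_assoc]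
  refine mul_dvd_mul_left _ ((pow_dvd_pow_of_dvd h2 _).trans (dvd_of_eq ?_))
  rw [mul_pow, ← pow_mul, ← pow_mul, Module.finrank_mul_finrank ℚ M L,
    Module.finrank_mul_finrank H M L]

omit [NumberField K] [IsGalois K H] [IsGalois K L] in
/-- The prime divisors of the discriminant divide `m d_H`. -/
theorem prime_dvd_discr_mix {e : (𝓞 K)ˣ} (he : ((e : 𝓞 K) : K) = ε) (hsm : s ∣ m)
    (hζ : IsPrimitiveRoot ζ m) (hα : α ^ s = algebraMap K L ε)
    (htop : IntermediateField.adjoin H {ζ, α} = ⊤) {p : ℕ} (hp : p.Prime)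
    (hd : (p : ℤ) ∣ discr L) : p ∣ m ∨ (p : ℤ) ∣ discr H := by
  rcases hp.dvd_mul.1 ((Int.natCast_dvd.1 hd).trans (natAbs_discr_mix_dvd he hζ hα htop)) with h | h
  · refine Or.inl ?_
    rcases hp.dvd_mul.1 h with h | h
    · exact (hp.dvd_of_dvd_pow h).trans hsm
    · exact hp.dvd_of_dvd_pow h
  · exact Or.inr (Int.natCast_dvd.2 (hp.dvd_of_dvd_pow h))

/-- **The degree grows by `q (q - 1)`.** -/
theorem mul_pred_le_finrank {F : Type} [Field F] [NumberField F] [Algebra K F] [Algebra H F]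
    [IsScalarTower K H F] [IsGalois K F] [Algebra F L] [IsScalarTower H F L]
    (hab : ∀ g h : H ≃ₐ[K] H, g * h = h * g) {e : (𝓞 K)ˣ}
    (he : ((e : 𝓞 K) : K) = ε) (hpow : ∀ q : ℕ, q.Prime → ∀ β : K, β ^ q ≠ ε)
    (hs : Squarefree s) (hμ : ∀ q : ℕ, q.Prime → q ∣ s → ∀ x : K, x ^ q = 1 → x = 1)
    (hsm : s ∣ m) {ζ₀ α₀ : F} (hζ₀ : IsPrimitiveRoot ζ₀ m)
    (hα₀ : α₀ ^ s = algebraMap K F ε) (htop₀ : IntermediateField.adjoin H {ζ₀, α₀} = ⊤)
    {q : ℕ} (hq : q.Prime) (hμq : ∀ x : K, x ^ q = 1 → x = 1) (hqm : ¬ q ∣ m)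
    (hqH : ¬ (q : ℤ) ∣ discr H)
    (hζ : IsPrimitiveRoot ζ (m * q)) (hα : α ^ (s * q) = algebraMap K L ε)
    (htop : IntermediateField.adjoin H {ζ, α} = ⊤) :
    q * (q - 1) ≤ Module.finrank F L := by
  haveI : NeZero q := ⟨hq.ne_zero⟩
  have hε : ε ≠ 0 := he ▸ RingOfIntegers.coe_ne_zero_iff.2 (Units.ne_zero e)
  have hqs : ¬ q ∣ s := fun h => hqm (h.trans hsm)
  have h0 := finrank_adjoin_root hab hε hpow hs hμ hζ₀ hα₀ htop₀
  have h1 := finrank_adjoin_root (m := m * q) (s := s * q) hab hε hpow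
    ((Nat.squarefree_mul ((hq.coprime_iff_not_dvd.2 hqs).symm)).2 ⟨hs, hq.squarefree⟩)
    (fun r hr hrd => (hr.dvd_mul.1 hrd).elim (hμ r hr) fun h =>
      ((Nat.prime_dvd_prime_iff_eq hr hq).1 h).symm ▸ hμq) hζ hα htop
  obtain ⟨ι, hι⟩ : ∃ ι : F →ₐ[H] L, ι = IsScalarTower.toAlgHom H F L := ⟨_, rfl⟩
  obtain ⟨M₀, hM₀⟩ : ∃ M₀ : IntermediateField H F, M₀ = IntermediateField.adjoin H {ζ₀} :=
    ⟨_, rfl⟩
  obtain ⟨M₁, hM₁⟩ : ∃ M₁ : IntermediateField H L, M₁ = IntermediateField.adjoin H {ζ} :=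
    ⟨_, rfl⟩
  rw [← hM₀] at h0
  rw [← hM₁] at h1
  have hle : M₀.map ι ≤ M₁ := by
    rw [hM₀, IntermediateField.adjoin_map, Set.image_singleton,
      IntermediateField.adjoin_simple_le_iff]
    obtain ⟨i, -, hi⟩ := hζ.eq_pow_of_pow_eq_one (ξ := ι ζ₀)
      (by rw [← map_pow, pow_mul, hζ₀.pow_eq_one, one_pow, map_one])
    rw [← hi, hM₁]
    exact pow_mem (IntermediateField.mem_adjoin_simple_self H ζ) i
  obtain ⟨k, hk⟩ : Module.finrank H M₀ ∣ Module.finrank H M₁ := by
    rw [(M₀.equivMap ι).toLinearEquiv.finrank_eq]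
    exact IntermediateField.finrank_dvd_of_le_right hle
  have hFL : Module.finrank F L = q * k := by
    refine Nat.eq_of_mul_eq_mul_left (Module.finrank_pos (R := H) (M := F)) ?_
    rw [Module.finrank_mul_finrank H F L, ← Module.finrank_mul_finrank H M₁ L, h1, hk,
      ← Module.finrank_mul_finrank H M₀ F, h0]
    ring
  have hqF : ¬ (q : ℤ) ∣ discr F := fun h =>
    (prime_dvd_discr_mix he hsm hζ₀ hα₀ htop₀ hq h).elim hqm hqH
  have hz : IsPrimitiveRoot (ζ ^ m) q := hζ.pow (NeZero.pos _) rfl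
  have hirr : Irreducible (cyclotomic q F) :=
    FA.IsogenyNF.irreducible_cyclotomic_level hq.ne_zero fun p hp => by
      rw [hq.primeFactors, Finset.mem_singleton] at hp
      exact hp ▸ hqF
  have hdeg := minpoly.degree_dvd (K := F) (Algebra.IsIntegral.isIntegral (ζ ^ m))
  rw [← minpoly.eq_of_irreducible_of_monic hirr
    (by rw [aeval_def, ← eval_map, map_cyclotomic]; exact hz.isRoot_cyclotomic hq.pos)
    (cyclotomic.monic q F), natDegree_cyclotomic, Nat.totient_prime hq, hFL] at hdeg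
  rw [hFL]
  have hcop : (q - 1).Coprime q :=
    (Nat.coprime_self_sub_left hq.one_le).2 (Nat.coprime_one_left q)
  refine Nat.mul_le_mul_left q (Nat.le_of_dvd ?_ (hcop.dvd_of_dvd_mul_left hdeg))
  exact Nat.pos_of_ne_zero fun e' => (Module.finrank_pos (R := F) (M := L)).ne'
    (by rw [hFL, e', mul_zero])

end FA.Weinberger

end
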