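import Fermat.Agent.Weinberger.Algorithm
import Fermat.Agent.Weinberger.Fields
import Fermat.Agent.Root.SummaryFrobenius
import Fermat.Agent.ChebotarevGRH.Main

/-!
# The Frobenius element

An automorphism of `H(ζ_M, ε ^ (1/s))` with a given restriction to `H` moving all the roots
`ε ^ (1/q)`, `q ∣ s`, and, for the primes `q ∣ w` (`w` the number of roots of unity of `K`), the
root of unity of the least `q`-power order not in `K`; the meaning of these conditions at a prime of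
degree one; and units covering the residues there.
-/

set_option autoImplicit false
set_option linter.style.haveILetI false

noncomputable section

open NumberField IsDedekindDomain Polynomial
open scoped Classical Pointwise

namespace FA.Weinberger

/-- Frobenius elements restrict to Frobenius elements. -/
theorem isArithFrobAt_restrict {K F L : Type*} [Field K] [NumberField K] [Field F] [NumberField F]
    [Field L] [NumberField L] [Algebra K F] [Algebra K L] [Algebra F L] [IsScalarTower K F L]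
    [IsGalois K F] [IsGalois K L] {τ : L ≃ₐ[K] L} {Q : Ideal (𝓞 L)} (hτ : IsArithFrobAt (𝓞 K) τ Q) :
    IsArithFrobAt (𝓞 K) (τ.restrictNormal F) (Q.under (𝓞 F)) := fun y => by
  rw [Ideal.under_under, Ideal.mem_comap, map_sub, map_pow]
  convert hτ (algebraMap (𝓞 F) (𝓞 L) y) using 2
  exact RingOfIntegers.ext (AlgEquiv.restrictNormal_commutes τ F (y : F))

variable {K : Type} [Field K] [NumberField K] {L : Type} [Field L] [NumberField L] [Algebra K L]
  [IsGalois K L]

omit [IsGalois K L] in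
/-- At a prime of norm `p ≡ 1 (mod q)` where `ε` is a `q`-th power residue, Frobenius fixes the
`q`-th roots of unity and of `ε`. -/
theorem frobenius_fixes {ε : (𝓞 K)ˣ} {q p : ℕ} (hq : q.Prime) (hp : p.Prime) (hqp : q ∣ p - 1)
    {v : Ideal (𝓞 K)} (hpv : (p : 𝓞 K) ∈ v) (hres : (ε : 𝓞 K) ^ ((p - 1) / q) - 1 ∈ v)
    {ξ : L} (hξ : IsPrimitiveRoot ξ q) {Q : Ideal (𝓞 L)} [Q.IsMaximal]
    (hQv : Q.under (𝓞 K) = v) {τ : L ≃ₐ[K] L} (hτ : IsArithFrobAt (𝓞 K) τ Q)
    (hcard : Nat.card (𝓞 K ⧸ Q.under (𝓞 K)) = p) {y : L}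
    (hy : y ^ q = 1 ∨ y ^ q = algebraMap K L ((ε : 𝓞 K) : K)) : τ y = y := by
  haveI : NeZero q := ⟨hq.ne_zero⟩
  haveI : Q.IsPrime := Ideal.IsMaximal.isPrime ‹_›
  have hpQ : (p : 𝓞 L) ∈ Q := by
    rw [← hQv, Ideal.mem_comap, map_natCast] at hpv
    exact hpv
  have hpq : ¬ p ∣ q := fun e => by
    have h1 := (Nat.prime_dvd_prime_iff_eq hp hq).1 e
    have h0 := hp.two_le
    have h2 := Nat.le_of_dvd (by omega) hqp
    omega
  obtain ⟨z, hz⟩ : ∃ z : 𝓞 L, (z : L) = ξ := ⟨hξ.toInteger, rfl⟩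
  have hzp : IsPrimitiveRoot z q := by
    refine IsPrimitiveRoot.of_map_of_injective (f := algebraMap _ L) ?_
      RingOfIntegers.coe_injective
    rw [show algebraMap (𝓞 L) L z = ξ from hz]
    exact hξ
  letI := Ideal.Quotient.field Q
  haveI : CharP (𝓞 L ⧸ Q) p := (CharP.charP_iff_prime_eq_zero hp).2 (by
    rw [← map_natCast (Ideal.Quotient.mk Q), Ideal.Quotient.eq_zero_iff_mem]
    exact hpQ)
  haveI : NeZero ((q : ℕ) : 𝓞 L ⧸ Q) := ⟨fun e => hpq ((CharP.cast_eq_zero_iff _ p q).1 e)⟩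
  obtain ⟨π, hπ⟩ : ∃ π : 𝓞 L →+* 𝓞 L ⧸ Q, π = Ideal.Quotient.mk Q := ⟨_, rfl⟩
  have hzQ : IsPrimitiveRoot (π z) q := by
    rw [← isRoot_cyclotomic_iff]
    have := (hzp.isRoot_cyclotomic (NeZero.pos q)).map (f := π)
    rwa [map_cyclotomic] at this
  have hep : π (algebraMap (𝓞 K) (𝓞 L) ε) ^ ((p - 1) / q) = 1 := by
    rw [← map_pow, ← map_pow, ← map_one π, hπ, Ideal.Quotient.eq,
      ← map_one (algebraMap (𝓞 K) (𝓞 L)), ← map_sub, ← Ideal.mem_comap]
    show _ ∈ Q.under (𝓞 K)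
    rw [hQv]
    exact hres
  obtain ⟨c, hc, hcy⟩ : ∃ c : 𝓞 L, π c ^ ((p - 1) / q) = 1 ∧ (c : L) = y ^ q := by
    rcases hy with h | h
    · exact ⟨1, by rw [map_one, one_pow], by rw [h]; rfl⟩
    · refine ⟨algebraMap (𝓞 K) (𝓞 L) ε, hep, ?_⟩
      show algebraMap (𝓞 L) L (algebraMap (𝓞 K) (𝓞 L) ε) = _
      rw [h, ← IsScalarTower.algebraMap_apply (𝓞 K) (𝓞 L) L,
        IsScalarTower.algebraMap_apply (𝓞 K) K L]
  obtain ⟨x, hx⟩ : ∃ x : 𝓞 L, (x : L) = y :=
    ⟨⟨y, IsIntegral.of_pow hq.pos (hcy ▸ RingOfIntegers.isIntegral_coe c)⟩, rfl⟩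
  have hxq : x ^ q = c := RingOfIntegers.ext
    ((map_pow (algebraMap (𝓞 L) L) x q).trans ((congrArg (· ^ q) hx).trans hcy.symm))
  have hxp : π x ^ (p - 1) = 1 := by
    conv_lhs => rw [← Nat.mul_div_cancel' hqp, pow_mul, ← map_pow, hxq, hc]
  have hx0 : π x ≠ 0 := fun e => by
    rw [e, zero_pow (by have := hp.two_le; omega)] at hxp
    exact zero_ne_one hxp
  have hy0 : y ≠ 0 := fun e => hx0 (by
    rw [show x = 0 from RingOfIntegers.coe_injective (hx.trans (e.trans (map_zero _).symm)),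
      map_zero])
  have hfix : τ (y ^ q) = y ^ q := by
    rcases hy with h | h <;> rw [h]
    · exact map_one τ
    · exact τ.commutes _
  obtain ⟨j, hj, hzj⟩ := hξ.eq_pow_of_pow_eq_one (ξ := τ y / y) (by
    rw [div_pow, ← map_pow, hfix, div_self (pow_ne_zero _ hy0)])
  have hxz : τ • x = z ^ j * x := RingOfIntegers.coe_injective (by
    rw [map_mul, map_pow]
    show τ (x : L) = (z : L) ^ j * (x : L)
    rw [hz, hzj, hx, div_mul_cancel₀ _ hy0])
  have h2 : π (τ • x) = π x ^ p := by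
    rw [hπ, ← map_pow, Ideal.Quotient.eq, ← hcard]
    exact hτ x
  rw [hxz, map_mul, map_pow, ← Nat.sub_add_cancel hp.one_le, pow_succ (π x), hxp] at h2
  have hj0 := Nat.eq_zero_of_dvd_of_lt ((hzQ.pow_eq_one_iff_dvd j).1 (mul_right_cancel₀ hx0 h2)) hj
  rw [hj0, pow_zero, eq_comm, div_eq_one_iff_eq hy0] at hzj
  exact hzj

/-- The conjugates of `σ`. -/
def conjClass (σ : L ≃ₐ[K] L) : Set (L ≃ₐ[K] L) := {g | ∃ x, g = x * σ * x⁻¹}

omit [NumberField K] [NumberField L] [IsGalois K L] in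
theorem conjClass_conj (σ : L ≃ₐ[K] L) : ∀ g ∈ conjClass σ, ∀ x, x * g * x⁻¹ ∈ conjClass σ := by
  rintro g ⟨y, rfl⟩ x
  exact ⟨x * y, by group⟩

variable {H : Type} [Field H] [NumberField H] [Algebra K H] [IsGalois K H] [Algebra H L]
  [IsScalarTower K H L] {m s : ℕ} [NeZero m] [NeZero s] {ζ α : L} {ε : K}

/-- The roots of unity of the least order not in `K` move independently over `H`. -/
theorem exists_move (hin : ∀ (q : ℕ) (z : H), q.Prime → q ∣ Units.torsionOrder K →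
      ¬ IsPrimitiveRoot z (q ^ ((Units.torsionOrder K).factorization q + 1)))
    (sH : H ≃ₐ[K] H) (z : ℕ → L) (S : Finset ℕ) (hS : ∀ q ∈ S, q.Prime ∧ q ∣ Units.torsionOrder K)
    (hz : ∀ q ∈ S, IsPrimitiveRoot (z q) (q ^ ((Units.torsionOrder K).factorization q + 1))) :
    ∃ σ : L ≃ₐ[K] L, (∀ x, σ (algebraMap H L x) = algebraMap H L (sH x)) ∧
      ∀ q ∈ S, σ (z q) ≠ z q := by
  haveI : Normal K H := inferInstance
  obtain ⟨t, ht⟩ := exists_primitive_torsion K
  induction S using Finset.induction_on with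
  | empty =>
    obtain ⟨σ₀, hσ₀⟩ := AlgEquiv.restrictNormalHom_surjective (F := K) (K₁ := H) L sH
    exact ⟨σ₀, fun x => by rw [← hσ₀]; exact (AlgEquiv.restrictNormal_commutes σ₀ H x).symm,
      by simp⟩
  | @insert q S hqS ih =>
    obtain ⟨σ, hσH, hσ⟩ := ih (fun r hr => hS r (Finset.mem_insert_of_mem hr))
      fun r hr => hz r (Finset.mem_insert_of_mem hr)
    by_cases hne : σ (z q) ≠ z q
    · exact ⟨σ, hσH, fun r hr => (Finset.mem_insert.1 hr).elim (fun e => e.symm ▸ hne) (hσ r)⟩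
    push Not at hne
    obtain ⟨hq, hqw⟩ := hS q (Finset.mem_insert_self q S)
    have hzq := hz q (Finset.mem_insert_self q S)
    have hroot : ∀ r ∈ insert q S, ∀ y : L, y ^ r = 1 → ∃ x : K, algebraMap K L x = y :=
      fun r hr y hy => by
        obtain ⟨hrp, d, hd⟩ := hS r hr
        haveI : NeZero r := ⟨hrp.ne_zero⟩
        obtain ⟨i, -, hi⟩ := (((ht.pow (Units.torsionOrder_pos K)
          (hd.trans (mul_comm r d))).map_of_injective
            (algebraMap K L).injective)).eq_pow_of_pow_eq_one hy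
        exact ⟨_, (map_pow (algebraMap K L) _ i).trans hi⟩
    have hroot' : ∀ r ∈ insert q S, ∃ c : K, algebraMap K L c = z r ^ r := fun r hr => by
      obtain ⟨hrp, -⟩ := hS r hr
      obtain ⟨d, hd⟩ := Nat.ordProj_dvd (Units.torsionOrder K) r
      haveI : NeZero r := ⟨hrp.ne_zero⟩
      obtain ⟨i, -, hi⟩ := (((ht.pow (Units.torsionOrder_pos K)
        (hd.trans (mul_comm _ d))).map_of_injective
          (algebraMap K L).injective)).eq_pow_of_pow_eq_one (ξ := z r ^ r)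
        (by rw [← pow_mul, ← pow_succ', (hz r hr).pow_eq_one])
      exact ⟨_, (map_pow (algebraMap K L) _ i).trans hi⟩
    obtain ⟨g, hg⟩ : ∃ g : L ≃ₐ[H] L, g (z q) ≠ z q := by
      by_contra hall
      push Not at hall
      haveI : IsGalois H L := IsGalois.tower_top_of_isGalois K H L
      obtain ⟨y, hy⟩ := IntermediateField.mem_bot.1 ((IsGalois.mem_bot_iff_fixed (z q)).2 hall)
      exact hin q y hq hqw
        (IsPrimitiveRoot.of_map_of_injective (f := algebraMap H L) (hy.symm ▸ hzq)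
          (algebraMap H L).injective)
    obtain ⟨γ, hγ⟩ : ∃ γ : L ≃ₐ[K] L, ∀ y, γ y = g y := ⟨g.restrictScalars K, fun y => rfl⟩
    have hshift : ∀ r ∈ insert q S, ∃ x : K,
        x ^ r = 1 ∧ ∀ k : ℕ, (γ ^ k) (z r) = algebraMap K L x ^ k * z r := fun r hr => by
      obtain ⟨c, hc⟩ := hroot' r hr
      have hr0 : z r ≠ 0 := (hz r hr).ne_zero (pow_ne_zero _ (hS r hr).1.ne_zero)
      have hxi : (γ (z r) / z r) ^ r = 1 := by
        rw [div_pow, ← map_pow, ← hc, γ.commutes, div_self (by rw [hc]; exact pow_ne_zero _ hr0)]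
      obtain ⟨x, hx⟩ := hroot r hr _ hxi
      refine ⟨x, (algebraMap K L).injective (by rw [map_pow, hx, hxi, map_one]), fun k => ?_⟩
      induction k with
      | zero => simp
      | succ k ihk =>
        rw [pow_succ', AlgEquiv.mul_apply, ihk, map_mul, map_pow, γ.commutes, pow_succ, mul_assoc,
          hx, div_mul_cancel₀ _ hr0]
    obtain ⟨N, hN⟩ : ∃ N, N = ∏ r ∈ S, r := ⟨_, rfl⟩
    have hqN : ¬ q ∣ N := fun h => by
      rw [hN, (Nat.prime_iff.1 hq).dvd_finsetProd_iff] at h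
      obtain ⟨r, hr, hqr⟩ := h
      exact hqS (((Nat.prime_dvd_prime_iff_eq hq (hS r (Finset.mem_insert_of_mem hr)).1).1 hqr).symm
        ▸ hr)
    refine ⟨σ * γ ^ N, fun x => ?_, fun r hr => ?_⟩
    · have hfix : ∀ k : ℕ, (γ ^ k) (algebraMap H L x) = algebraMap H L x := fun k => by
        induction k with
        | zero => rfl
        | succ k ihk => rw [pow_succ', AlgEquiv.mul_apply, ihk, hγ, g.commutes]
      rw [AlgEquiv.mul_apply, hfix, hσH]
    obtain ⟨x, hx1, hx⟩ := hshift r hr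
    rw [AlgEquiv.mul_apply, hx, map_mul, map_pow, σ.commutes]
    rcases Finset.mem_insert.1 hr with rfl | hrS
    · rw [hne]
      intro he
      have h1 : algebraMap K L x ^ N = 1 :=
        mul_right_cancel₀ (hzq.ne_zero (pow_ne_zero _ hq.ne_zero)) (he.trans (one_mul _).symm)
      have h2 := pow_gcd_eq_one.2
        ⟨show algebraMap K L x ^ r = 1 by rw [← map_pow, hx1, map_one], h1⟩
      rw [Nat.Coprime.gcd_eq_one (hq.coprime_iff_not_dvd.2 hqN), pow_one] at h2
      apply hg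
      rw [← hγ, ← pow_one γ, hx, pow_one, h2, one_mul]
    · obtain ⟨d, hd⟩ := hN ▸ Finset.dvd_prod_of_mem (fun r => r) hrS
      rw [hd, pow_mul, ← map_pow, hx1, map_one, one_pow, one_mul]
      exact hσ r hrS

/-- **The automorphism.** -/
theorem exists_aut (hab : ∀ g h : H ≃ₐ[K] H, g * h = h * g)
    (hin : ∀ (q : ℕ) (z : H), q.Prime → q ∣ Units.torsionOrder K →
      ¬ IsPrimitiveRoot z (q ^ ((Units.torsionOrder K).factorization q + 1))) (hε : ε ≠ 0)
    (hpow : ∀ q : ℕ, q.Prime → ∀ β : K, β ^ q ≠ ε) (hs : Squarefree s)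
    (hμ : ∀ q : ℕ, q.Prime → q ∣ s → ∀ x : K, x ^ q = 1 → x = 1)
    (hsm : s ∣ m) (hζ : IsPrimitiveRoot ζ m) (hα : α ^ s = algebraMap K L ε)
    (htop : IntermediateField.adjoin H {ζ, α} = ⊤)
    (hwm : ∀ q : ℕ, q.Prime → q ∣ Units.torsionOrder K →
      q ^ ((Units.torsionOrder K).factorization q + 1) ∣ m) (sH : H ≃ₐ[K] H) :
    ∃ σ : L ≃ₐ[K] L, σ.restrictNormal H = sH ∧
      (∀ q : ℕ, q.Prime → q ∣ Units.torsionOrder K →
        σ (ζ ^ (m / q ^ ((Units.torsionOrder K).factorization q + 1))) ≠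
          ζ ^ (m / q ^ ((Units.torsionOrder K).factorization q + 1))) ∧
      σ α = ζ ^ (m / s) * α := by
  haveI : Normal K H := inferInstance
  obtain ⟨z, hzdef⟩ : ∃ z : ℕ → L,
      z = fun q => ζ ^ (m / q ^ ((Units.torsionOrder K).factorization q + 1)) := ⟨_, rfl⟩
  obtain ⟨σ₁, hσ₁, hσ₁z⟩ := exists_move hin sH z (Units.torsionOrder K).primeFactors
    (fun q hq => ⟨Nat.prime_of_mem_primeFactors hq, Nat.dvd_of_mem_primeFactors hq⟩)
    fun q hq => hzdef ▸ hζ.pow (NeZero.pos m) (Nat.div_mul_cancel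
      (hwm q (Nat.prime_of_mem_primeFactors hq) (Nat.dvd_of_mem_primeFactors hq))).symm
  obtain ⟨M, hM⟩ : ∃ M : IntermediateField H L, M = IntermediateField.adjoin H {ζ} := ⟨_, rfl⟩
  obtain ⟨e, he⟩ : ∃ e : M, algebraMap M L e = algebraMap K L ε :=
    ⟨algebraMap H M (algebraMap K H ε), by
      rw [← IsScalarTower.algebraMap_apply, ← IsScalarTower.algebraMap_apply]⟩
  have hζM : ζ ∈ M := hM ▸ IntermediateField.mem_adjoin_simple_self H ζ
  have hα0 : α ≠ 0 := fun h => by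
    rw [h, zero_pow (NeZero.ne s), eq_comm] at hα
    exact hε (by simpa using hα)
  obtain ⟨j, hj⟩ : ∃ j : ℕ, ζ ^ j = σ₁ α / α := by
    have hη : (σ₁ α / α) ^ s = 1 := by
      rw [div_pow, ← map_pow, hα, σ₁.commutes, div_self]
      simpa using hε
    obtain ⟨j, -, hj⟩ := hζ.eq_pow_of_pow_eq_one (ξ := σ₁ α / α)
      (orderOf_dvd_iff_pow_eq_one.1 ((orderOf_dvd_of_pow_eq_one hη).trans hsm))
    exact ⟨j, hj⟩
  obtain ⟨β, hβdef⟩ : ∃ β, β = ζ ^ (m / s) / ζ ^ j * α := ⟨_, rfl⟩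
  have hjs : (ζ ^ j) ^ s = 1 := by
    rw [hj, div_pow, ← map_pow, hα, σ₁.commutes, div_self]
    simpa using hε
  have hβ : β ^ s = algebraMap K L ε := by
    rw [hβdef, mul_pow, div_pow, hjs, ← pow_mul, Nat.div_mul_cancel hsm, hζ.pow_eq_one, div_one,
      one_mul, hα]
  have hfin : Module.finrank M L = s :=
    hM ▸ finrank_adjoin_root hab hε hpow hs hμ hζ hα htop
  have htopM : IntermediateField.adjoin M {α} = ⊤ := by
    apply IntermediateField.restrictScalars_injective H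
    rw [IntermediateField.restrictScalars_top, eq_top_iff, ← htop, IntermediateField.adjoin_le_iff]
    intro r hr
    rcases hr with rfl | hr
    · rw [SetLike.mem_coe, IntermediateField.mem_restrictScalars]
      exact IntermediateField.algebraMap_mem _ (⟨r, hζM⟩ : M)
    · rw [Set.mem_singleton_iff] at hr
      rw [hr, SetLike.mem_coe, IntermediateField.mem_restrictScalars]
      exact IntermediateField.mem_adjoin_simple_self M α
  have hint : IsIntegral M α := Algebra.IsIntegral.isIntegral α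
  have hmin : minpoly M α = X ^ s - C e := by
    refine eq_of_monic_of_dvd_of_natDegree_le (minpoly.monic hint)
      (monic_X_pow_sub_C _ (NeZero.ne s)) (minpoly.dvd M α (by simp [hα, ← he])) ?_ |>.symm
    rw [natDegree_X_pow_sub_C, ← IntermediateField.adjoin.finrank hint, htopM,
      IntermediateField.finrank_top', hfin]
  haveI : IsGalois M L := by
    haveI : IsGalois H L := IsGalois.tower_top_of_isGalois K H L
    exact IsGalois.tower_top_of_isGalois H M L
  obtain ⟨g, hg⟩ := minpoly.exists_algEquiv_of_root' (L := L) hint.isAlgebraic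
    (x := β) (by rw [hmin]; simp [hβ, ← he])
  obtain ⟨σ, hσ⟩ : ∃ σ : L ≃ₐ[K] L, ∀ x, σ x = g (σ₁ x) :=
    ⟨((g.restrictScalars H).restrictScalars K) * σ₁, fun x => rfl⟩
  have hgM : ∀ x ∈ M, g x = x := fun x hx => g.commutes (⟨x, hx⟩ : M)
  refine ⟨σ, AlgEquiv.ext fun x => (algebraMap H L).injective ?_, fun q hq hqw => ?_, ?_⟩
  · rw [AlgEquiv.restrictNormal_commutes, hσ, hσ₁]
    exact hgM _ (M.algebraMap_mem _)
  · obtain ⟨l, -, hl⟩ := hζ.eq_pow_of_pow_eq_one (ξ := σ₁ (z q))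
      (by rw [← map_pow, hzdef, pow_right_comm, hζ.pow_eq_one, one_pow, map_one])
    rw [hσ]
    have h1 := hσ₁z q (Nat.mem_primeFactors.2 ⟨hq, hqw, Units.torsionOrder_ne_zero K⟩)
    have hmem : σ₁ (z q) ∈ M := hl ▸ pow_mem hζM l
    rw [← hgM _ hmem, hzdef] at h1
    exact h1
  · have h1 : σ₁ α = ζ ^ j * α := by rw [hj, div_mul_cancel₀ _ hα0]
    rw [hσ, h1, map_mul, hgM _ (pow_mem hζM j), hg, hβdef, ← mul_assoc,
      mul_div_cancel₀ _ (pow_ne_zero _ (hζ.ne_zero (NeZero.ne m)))]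

/-- **The units cover the residues.** -/
theorem goodPrime_of_conditions [IsPrincipalIdealRing (𝓞 K)] {r : 𝓞 K} {p : ℕ} (hp : p.Prime)
    (hr : Ideal.absNorm (Ideal.span {r}) = p) (hpw : ¬ p ∣ Units.torsionOrder K)
    (hq : ∀ q : ℕ, q.Prime → q ∣ Units.torsionOrder K →
      ¬ q ^ ((Units.torsionOrder K).factorization q + 1) ∣ p - 1) (ε : (𝓞 K)ˣ)
    (hε : ∀ q : ℕ, q.Prime → ¬ q ∣ Units.torsionOrder K → q ∣ p - 1 →
      ¬ r ∣ (ε : 𝓞 K) ^ ((p - 1) / q) - 1) :
    GoodPrime r := by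
  have hr0 : r ≠ 0 := fun e => hp.ne_zero (by rw [← hr, e]; simp)
  have hprime : (Ideal.span {r}).IsPrime :=
    Ideal.isPrime_of_irreducible_absNorm (hr.symm ▸ hp)
  refine ⟨(Ideal.span_singleton_prime hr0).1 hprime, fun x hx => ?_⟩
  haveI hmax : (Ideal.span {r}).IsMaximal := hprime.isMaximal (by simpa using hr0)
  obtain ⟨R, hR⟩ : ∃ R : Ideal (𝓞 K), R = Ideal.span {r} := ⟨_, rfl⟩
  haveI : R.IsMaximal := hR ▸ hmax
  haveI : Finite (𝓞 K ⧸ R) := Ideal.finiteQuotientOfFreeOfNeBot _ (by simpa [hR] using hr0)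
  letI := Ideal.Quotient.field R
  have hcard : Nat.card (𝓞 K ⧸ R)ˣ = p - 1 := by
    rw [Nat.card_units, ← Submodule.cardQuot_apply, ← Ideal.absNorm_apply, hR, hr]
  obtain ⟨f, hf⟩ : ∃ f : (𝓞 K)ˣ →* (𝓞 K ⧸ R)ˣ, f = Units.map (Ideal.Quotient.mk R).toMonoidHom :=
    ⟨_, rfl⟩
  obtain ⟨d, hd⟩ : ∃ d, d = orderOf (f ε) := ⟨_, rfl⟩
  obtain ⟨t, ht⟩ : d ∣ p - 1 := hd ▸ hcard ▸ orderOf_dvd_natCard (f ε)
  have htw : ∀ q : ℕ, q.Prime → q ∣ t → q ∣ Units.torsionOrder K := fun q hq' hqt => by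
    by_contra hqw
    obtain ⟨t', rfl⟩ := hqt
    refine hε q hq' hqw ⟨d * t', by rw [ht]; ring⟩ ?_
    rw [← Ideal.mem_span_singleton, ← hR, ← Ideal.Quotient.eq, map_pow, map_one,
      show (p - 1) / q = d * t' by
        rw [ht, show d * (q * t') = q * (d * t') by ring, Nat.mul_div_cancel_left _ hq'.pos]]
    have h1 : f ε ^ (d * t') = 1 := by rw [pow_mul, hd, pow_orderOf_eq_one, one_pow]
    simpa [hf] using congrArg Units.val h1
  have hwdvd : Units.torsionOrder K ∣ Nat.card f.range := by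
    obtain ⟨u, hu⟩ := exists_primitive_torsion K
    have hu' : IsPrimitiveRoot (u : 𝓞 K) (Units.torsionOrder K) :=
      IsPrimitiveRoot.of_map_of_injective (f := algebraMap (𝓞 K) K) hu RingOfIntegers.coe_injective
    haveI : NeZero ((Units.torsionOrder K : ℕ) : 𝓞 K ⧸ R) := ⟨fun e => hpw (by
      rw [← map_natCast (Ideal.Quotient.mk R), Ideal.Quotient.eq_zero_iff_mem] at e
      have h2 := Ideal.absNorm_dvd_absNorm_of_le ((Ideal.span_singleton_le_iff_mem _).2 e)
      rw [Ideal.absNorm_span_singleton, ← map_natCast (algebraMap ℤ (𝓞 K)),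
        Algebra.norm_algebraMap, Int.natAbs_pow, Int.natAbs_natCast, hR, hr] at h2
      exact hp.dvd_of_dvd_pow h2)⟩
    have hu2 : IsPrimitiveRoot (Ideal.Quotient.mk R (u : 𝓞 K)) (Units.torsionOrder K) := by
      rw [← isRoot_cyclotomic_iff]
      have := (hu'.isRoot_cyclotomic (Units.torsionOrder_pos K)).map (f := Ideal.Quotient.mk R)
      rwa [map_cyclotomic] at this
    have h3 : orderOf (f u) = Units.torsionOrder K := by
      rw [← orderOf_units, hu2.eq_orderOf, hf]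
      rfl
    rw [← h3]
    exact (Subgroup.orderOf_coe (⟨f u, u, rfl⟩ : f.range)).symm ▸ orderOf_dvd_natCard _
  have hsurj : f.range = ⊤ := by
    refine Subgroup.eq_top_of_card_eq _ ?_
    rw [hcard]
    have h1 : d ∣ Nat.card f.range := by
      rw [hd]
      exact (Subgroup.orderOf_coe (⟨f ε, ε, rfl⟩ : f.range)).symm ▸ orderOf_dvd_natCard _
    refine Nat.dvd_antisymm (hcard ▸ Subgroup.card_subgroup_dvd_card _) ?_
    refine (Nat.dvd_iff_prime_pow_dvd_dvd _ _).2 fun q k hq' hk => ?_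
    by_cases hqw : q ∣ Units.torsionOrder K
    · refine (pow_dvd_pow q ?_).trans ((Nat.ordProj_dvd _ q).trans hwdvd)
      by_contra hlt
      exact hq q hq' hqw ((pow_dvd_pow q (by omega)).trans hk)
    · rw [ht] at hk
      exact ((Nat.Coprime.pow_left k ((hq'.coprime_iff_not_dvd).2 fun e => hqw
        (htw q hq' e))).dvd_of_dvd_mul_right hk).trans h1
  have hxR : Ideal.Quotient.mk R x ≠ 0 := fun e => hx (by
    rw [Ideal.Quotient.eq_zero_iff_mem, hR, Ideal.mem_span_singleton] at e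
    exact e)
  obtain ⟨u, hu⟩ : Units.mk0 _ hxR ∈ f.range := hsurj ▸ Subgroup.mem_top _
  refine ⟨u, ?_⟩
  rw [← Ideal.mem_span_singleton, ← hR, ← Ideal.Quotient.eq]
  simpa [hf] using (congrArg Units.val hu).symm

end FA.Weinberger

end
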