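import Mathlib.RingTheory.PrincipalIdealDomain
import Mathlib.RingTheory.UniqueFactorizationDomain.NormalizedFactors
import Mathlib.Tactic.LinearCombination

/-!
# The algorithm of Motzkin and Weinberger

Call a prime good if the units cover the nonzero residues modulo it. In a principal domain where
every invertible class modulo a prime contains a unit or a good prime, and modulo any element a
unit or a prime, the weights `2` for good and `3` for the other primes give a Euclidean algorithm.
-/

set_option autoImplicit false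
set_option linter.style.haveILetI false

noncomputable section

open UniqueFactorizationMonoid
open scoped Classical

namespace FA.Weinberger

variable {R : Type*} [CommRing R]

/-- A prime whose nonzero residues are all represented by units. -/
def GoodPrime (π : R) : Prop := Prime π ∧ ∀ x : R, ¬ π ∣ x → ∃ u : Rˣ, π ∣ x - u

theorem GoodPrime.of_associated {π π' : R} (h : Associated π π') (hπ : GoodPrime π) :
    GoodPrime π' := by
  refine ⟨h.prime hπ.1, fun x hx => ?_⟩
  obtain ⟨u, hu⟩ := hπ.2 x fun e => hx (h.dvd_iff_dvd_left.1 e)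
  exact ⟨u, h.dvd_iff_dvd_left.1 hu⟩

/-- The weight of a prime. -/
def weight (π : R) : ℕ := if GoodPrime π then 2 else 3

theorem two_le_weight (π : R) : 2 ≤ weight π ∧ weight π ≤ 3 := by
  rw [weight]
  split_ifs <;> norm_num

theorem weight_congr {π π' : R} (h : Associated π π') : weight π = weight π' :=
  if_congr ⟨GoodPrime.of_associated h, GoodPrime.of_associated h.symm⟩ rfl rfl

variable [IsDomain R] [IsPrincipalIdealRing R]

/-- An algorithm from the two conditions. -/
theorem exists_algorithm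
    (hA : ∀ π : R, Prime π → ∀ a : R, ¬ π ∣ a → ∃ r, π ∣ a - r ∧ (IsUnit r ∨ GoodPrime r))
    (hB : ∀ a b : R, b ≠ 0 → IsCoprime a b → ∃ r, b ∣ a - r ∧ (IsUnit r ∨ Prime r)) :
    ∃ g : R → ℕ, ∀ a b : R, b ≠ 0 → ∃ q r, a = b * q + r ∧ g r < g b := by
  letI : StrongNormalizationMonoid R := UniqueFactorizationMonoid.strongNormalizationMonoid
  obtain ⟨f, hf⟩ : ∃ f : R → ℕ, f = fun x => ((normalizedFactors x).map weight).sum := ⟨_, rfl⟩
  have hmul : ∀ x y : R, x ≠ 0 → y ≠ 0 → f (x * y) = f x + f y := fun x y hx hy => by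
    simp only [hf, normalizedFactors_mul hx hy, Multiset.map_add, Multiset.sum_add]
  have hunit : ∀ x : R, IsUnit x → f x = 0 := fun x hx => by
    have h0 : normalizedFactors x = 0 := Multiset.eq_zero_of_forall_notMem fun p hp =>
      (prime_of_normalized_factor p hp).not_isUnit
        (isUnit_of_dvd_unit (dvd_of_mem_normalizedFactors hp) hx)
    simp [hf, h0]
  have hprime : ∀ x : R, Prime x → f x = weight x := fun x hx => by
    simp only [hf, normalizedFactors_irreducible hx.irreducible, Multiset.map_singleton,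
      Multiset.sum_singleton]
    exact weight_congr (normalize_associated x)
  have hbig : ∀ x : R, x ≠ 0 → ¬ IsUnit x → ¬ Prime x → 4 ≤ f x := fun x hx0 hu hp => by
    have hprod := prod_normalizedFactors hx0
    have h2 : 2 ≤ (normalizedFactors x).card := by
      by_contra hlt
      rcases (show (normalizedFactors x).card = 0 ∨ (normalizedFactors x).card = 1 by omega)
        with h | h
      · rw [Multiset.card_eq_zero.1 h, Multiset.prod_zero] at hprod
        exact hu (associated_one_iff_isUnit.1 hprod.symm)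
      · obtain ⟨p, hpe⟩ := Multiset.card_eq_one.1 h
        rw [hpe, Multiset.prod_singleton] at hprod
        exact hp (hprod.prime (prime_of_normalized_factor p (hpe ▸ Multiset.mem_singleton_self p)))
    have h3 := Multiset.card_nsmul_le_sum (a := 2) (s := (normalizedFactors x).map weight)
      fun w hw => by
        obtain ⟨p, -, rfl⟩ := Multiset.mem_map.1 hw
        exact (two_le_weight p).1
    rw [Multiset.card_map, smul_eq_mul] at h3
    simp only [hf]
    omega
  have key : ∀ a b : R, b ≠ 0 → IsCoprime a b → ¬ IsUnit b →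
      ∃ r, r ≠ 0 ∧ b ∣ a - r ∧ f r < f b := fun a b hb hab hbu => by
    have hnd : ¬ b ∣ a := fun h => hbu (hab.isUnit_of_dvd' h dvd_rfl)
    by_cases hp : Prime b
    · rw [hprime b hp]
      by_cases hg : GoodPrime b
      · obtain ⟨u, hu⟩ := hg.2 a hnd
        refine ⟨u, u.ne_zero, hu, ?_⟩
        rw [hunit _ u.isUnit, weight, if_pos hg]
        norm_num
      · obtain ⟨r, hr, hr'⟩ := hA b hp a hnd
        rw [weight, if_neg hg]
        rcases hr' with hu | hgr
        · exact ⟨r, hu.ne_zero, hr, by rw [hunit r hu]; norm_num⟩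
        · exact ⟨r, hgr.1.ne_zero, hr, by rw [hprime r hgr.1, weight, if_pos hgr]; norm_num⟩
    · have h4 := hbig b hb hbu hp
      obtain ⟨r, hr, hr'⟩ := hB a b hb hab
      rcases hr' with hu | hpr
      · exact ⟨r, hu.ne_zero, hr, by rw [hunit r hu]; omega⟩
      · exact ⟨r, hpr.ne_zero, hr, by
          rw [hprime r hpr]; have := (two_le_weight r).2; omega⟩
  refine ⟨fun x => if x = 0 then 0 else f x + 1, fun a b hb => ?_⟩
  show ∃ q r, a = b * q + r ∧ (if r = 0 then 0 else f r + 1) < (if b = 0 then 0 else f b + 1)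
  rw [if_neg hb]
  by_cases hdvd : b ∣ a
  · obtain ⟨q, rfl⟩ := hdvd
    exact ⟨q, 0, (add_zero _).symm, by simp⟩
  obtain ⟨d, hd⟩ := (IsPrincipalIdealRing.principal (Ideal.span ({a, b} : Set R))).1
  rw [← Ideal.span] at hd
  obtain ⟨a', ha'⟩ := Ideal.mem_span_singleton.1 (hd ▸ Ideal.subset_span (by simp) : a ∈ _)
  obtain ⟨b', hb'⟩ := Ideal.mem_span_singleton.1 (hd ▸ Ideal.subset_span (by simp) : b ∈ _)
  obtain ⟨x, y, hxy⟩ := Ideal.mem_span_pair.1
    (hd.symm ▸ Ideal.mem_span_singleton_self d : d ∈ Ideal.span ({a, b} : Set R))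
  have hd0 : d ≠ 0 := fun e => hb (by rw [hb', e, zero_mul])
  have hb'0 : b' ≠ 0 := fun e => hb (by rw [hb', e, mul_zero])
  have hcop : IsCoprime a' b' :=
    ⟨x, y, mul_left_cancel₀ hd0 (by rw [ha', hb'] at hxy; rw [mul_one]; linear_combination hxy)⟩
  have hu' : ¬ IsUnit b' := fun hu => hdvd (by
    rw [ha', hb']
    exact mul_dvd_mul_left d (hu.dvd))
  obtain ⟨r, hr0, ⟨q, hq⟩, hlt⟩ := key a' b' hb'0 hcop hu'
  refine ⟨q, d * r, by rw [ha', hb']; linear_combination d * hq, ?_⟩
  rw [if_neg (mul_ne_zero hd0 hr0), hmul d r hd0 hr0, hb', hmul d b' hd0 hb'0]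
  omega

omit [IsDomain R] [IsPrincipalIdealRing R] in
/-- A ring with an algorithm is principal. -/
theorem isPrincipalIdealRing_of_algorithm
    (h : ∃ g : R → ℕ, ∀ a b : R, b ≠ 0 → ∃ q r, a = b * q + r ∧ g r < g b) :
    IsPrincipalIdealRing R := by
  obtain ⟨g, hg⟩ := h
  refine ⟨fun I => ?_⟩
  by_cases hI : I = ⊥
  · exact hI ▸ bot_isPrincipal
  obtain ⟨b₀, hb₀, hb₀0⟩ := Submodule.exists_mem_ne_zero_of_ne_bot hI
  have hne : ∃ n, ∃ b ∈ I, b ≠ 0 ∧ g b = n := ⟨g b₀, b₀, hb₀, hb₀0, rfl⟩
  obtain ⟨b, hbI, hb0, hgb⟩ := Nat.find_spec hne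
  refine ⟨b, le_antisymm (fun a ha => ?_) ((Ideal.span_singleton_le_iff_mem _).2 hbI)⟩
  obtain ⟨q, r, he, hlt⟩ := hg a b hb0
  have hr : r = 0 := by
    by_contra hr0
    refine Nat.find_min hne (hgb ▸ hlt) ⟨r, ?_, hr0, rfl⟩
    rw [show r = a - b * q by rw [he]; ring]
    exact I.sub_mem ha (I.mul_mem_right q hbI)
  rw [Submodule.mem_span_singleton]
  exact ⟨q, by rw [he, hr, add_zero, smul_eq_mul, mul_comm]⟩

end FA.Weinberger

end
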