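import Fermat.Agent.Weinberger.Units
import Fermat.Agent.Root.SummaryExistenceTheorem
import Fermat.Agent.Root.SummaryHeckeLSeries
import Mathlib.NumberTheory.NumberField.ClassNumber
import Mathlib.NumberTheory.NumberField.Discriminant.Different
import Mathlib.RingTheory.Polynomial.Cyclotomic.Roots
import Mathlib.FieldTheory.KummerExtension

/-!
# The class field of a residue class

For a prime `π` of a principal number field and `a` prime to it, an abelian extension `H`,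
unramified at the infinite places and outside `π`, of degree dividing `N π - 1`, has an automorphism
`s` such that the primes with Frobenius element `s` are `(r)`, `r ≡ a (mod π)`. If a prime `q`
divides the number of roots of unity of `K`, the next `q`-power root of unity is not in `H`: it
would generate an extension of degree `q` unramified everywhere.
-/

set_option autoImplicit false
set_option linter.style.haveILetI false

noncomputable section

universe u

open NumberField IsDedekindDomain Polynomial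
open FA.Hecke (RayClassGroup rayClass coprimeIdeals IsRayElt)
open FA.ArtinRec (semiClasses IsSemiRay)
open FA.Ext (primeIdeal)
open scoped Pointwise nonZeroDivisors Classical

namespace FA.Weinberger

variable {K : Type u} [Field K] [NumberField K]

/-- The classes of the principal ideals of elements congruent to `1`. -/
theorem exists_rep_of_mem_semiClasses {𝔪 : Ideal (𝓞 K)} (h𝔪 : 𝔪 ≠ ⊥) {γ : RayClassGroup 𝔪}
    (hγ : γ ∈ semiClasses h𝔪 (∅ : Set (InfinitePlace K))) :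
    ∃ I : coprimeIdeals 𝔪, rayClass h𝔪 I = γ ∧ ∃ x y : 𝓞 K, x ≠ 0 ∧ y ≠ 0 ∧
      Ideal.Quotient.mk 𝔪 x = 1 ∧ Ideal.Quotient.mk 𝔪 y = 1 ∧
        Ideal.span {x} * I.1.1 = Ideal.span {y} := by
  haveI := FA.Hecke.finite_rayClassGroup h𝔪
  induction hγ using Subgroup.closure_induction with
  | mem γ hγ =>
    obtain ⟨x, hx, rfl⟩ := hγ
    refine ⟨hx.ideal, rfl, 1, x, one_ne_zero, hx.1, map_one _, ?_, ?_⟩
    · rw [← map_one (Ideal.Quotient.mk 𝔪), Ideal.Quotient.mk_eq_mk_iff_sub_mem]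
      exact hx.2.1
    · simp [IsSemiRay.ideal]
  | one =>
    exact ⟨1, map_one _, 1, 1, one_ne_zero, one_ne_zero, map_one _, map_one _,
      by simp [Ideal.one_eq_top]⟩
  | mul γ δ _ _ h1 h2 =>
    obtain ⟨I, hI, x, y, hx0, hy0, hx, hy, he⟩ := h1
    obtain ⟨J, hJ, z, w, hz0, hw0, hz, hw, he'⟩ := h2
    refine ⟨I * J, by rw [map_mul, hI, hJ], x * z, y * w, mul_ne_zero hx0 hz0,
      mul_ne_zero hy0 hw0, by rw [map_mul, hx, hz, mul_one], by rw [map_mul, hy, hw, mul_one], ?_⟩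
    rw [← Ideal.span_singleton_mul_span_singleton, ← Ideal.span_singleton_mul_span_singleton,
      Submonoid.coe_mul, Submonoid.coe_mul, ← he, ← he']
    ring
  | inv γ _ h1 =>
    obtain ⟨I, hI, x, y, hx0, hy0, hx, hy, he⟩ := h1
    obtain ⟨n, hn⟩ : ∃ n, n = Nat.card (RayClassGroup 𝔪) - 1 := ⟨_, rfl⟩
    refine ⟨I ^ n, ?_, x ^ n, y ^ n, pow_ne_zero _ hx0, pow_ne_zero _ hy0,
      by rw [map_pow, hx, one_pow], by rw [map_pow, hy, one_pow], ?_⟩
    · rw [map_pow, hI]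
      refine eq_inv_of_mul_eq_one_left ?_
      rw [← pow_succ, hn, Nat.sub_add_cancel Nat.card_pos, pow_card_eq_one']
    · rw [← Ideal.span_singleton_pow, ← Ideal.span_singleton_pow, ← he, mul_pow,
        SubmonoidClass.coe_pow, SubmonoidClass.coe_pow]

variable [IsPrincipalIdealRing (𝓞 K)]

/-- No abelian extension of degree `q` is unramified everywhere. -/
theorem finrank_eq_one_of_unramified {E : Type*} [Field E] [NumberField E] [Algebra K E]
    [IsGalois K E] [IsMulCommutative (E ≃ₐ[K] E)] [IsUnramifiedAtInfinitePlaces K E]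
    [Algebra.Unramified (𝓞 K) (𝓞 E)] : Module.finrank K E = 1 := by
  obtain ⟨L, _, _, _, _, _, -, -, ⟨e, -⟩, hL⟩ := FA.ArtinRec.exists_hilbertClassField K
  obtain ⟨i⟩ := FA.ArtinRec.exists_algHom_hilbertClassField K hL (E := E)
    FA.ArtinRec.not_isRam_of_unramified
  have h1 : Module.finrank K L = 1 := by
    rw [← IsGalois.card_aut_eq_finrank, ← Nat.card_congr e.toEquiv, Nat.card_eq_fintype_card]
    exact classNumber_eq_one_iff.2 inferInstance
  exact le_antisymm (h1 ▸ LinearMap.finrank_le_finrank_of_injective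
    (f := i.toLinearMap) i.injective)
    Module.finrank_pos

/-- **The next root of unity is not in the class field.** -/
theorem not_isPrimitiveRoot_next {H : Type u} [Field H] [NumberField H] [Algebra K H]
    [IsGalois K H] [IsUnramifiedAtInfinitePlaces K H] (hab : ∀ g h : H ≃ₐ[K] H, g * h = h * g)
    {π : 𝓞 K} (hπ : Prime π) (hdeg : Module.finrank K H ∣ (Algebra.norm ℤ π).natAbs - 1)
    (hin : ∀ Q : HeightOneSpectrum (𝓞 H), π ∉ Q.asIdeal.under (𝓞 K) →
      Q.asIdeal.inertia (H ≃ₐ[K] H) = ⊥)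
    {q : ℕ} (hq : q.Prime) (hqw : q ∣ Units.torsionOrder K) {z : H} :
    ¬ IsPrimitiveRoot z (q ^ ((Units.torsionOrder K).factorization q + 1)) := fun hz => by
  obtain ⟨e, he⟩ : ∃ e, e = (Units.torsionOrder K).factorization q := ⟨_, rfl⟩
  rw [← he] at hz
  haveI : NeZero q := ⟨hq.ne_zero⟩
  obtain ⟨t, ht⟩ := exists_primitive_torsion K
  have hzK : ∀ x : K, algebraMap K H x ≠ z := fun x hx => by
    have hx1 : IsPrimitiveRoot x (q ^ (e + 1)) :=
      IsPrimitiveRoot.of_map_of_injective (f := algebraMap K H) (hx.symm ▸ hz)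
        (algebraMap K H).injective
    have h1 := hx1.dvd_of_pow_eq_one _ (pow_torsionOrder_eq_one (pow_ne_zero _ hq.ne_zero)
      hx1.pow_eq_one)
    rw [he] at h1
    exact absurd (((Nat.Prime.pow_dvd_iff_le_factorization hq (Units.torsionOrder_ne_zero K)).1 h1))
      (Nat.not_succ_le_self _)
  have hq1 : ∀ y : H, y ^ q = 1 → ∃ x : K, algebraMap K H x = y := fun y hy => by
    obtain ⟨d, hd⟩ := hqw
    obtain ⟨i, -, hi⟩ := (((ht.pow (Units.torsionOrder_pos K)
      (hd.trans (mul_comm q d))).map_of_injective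
      (algebraMap K H).injective)).eq_pow_of_pow_eq_one hy
    exact ⟨_, (map_pow (algebraMap K H) _ i).trans hi⟩
  obtain ⟨c, hc⟩ : ∃ c : K, algebraMap K H c = z ^ q := by
    obtain ⟨d, hd⟩ : q ^ e ∣ Units.torsionOrder K := he ▸ Nat.ordProj_dvd _ _
    obtain ⟨i, -, hi⟩ := (((ht.pow (Units.torsionOrder_pos K)
      (hd.trans (mul_comm _ d))).map_of_injective
      (algebraMap K H).injective)).eq_pow_of_pow_eq_one (ξ := z ^ q)
      (by rw [← pow_mul, ← pow_succ', hz.pow_eq_one])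
    exact ⟨_, (map_pow (algebraMap K H) _ i).trans hi⟩
  have hirr := X_pow_sub_C_irreducible_of_prime hq (a := c) fun b hb => by
    have hb0 : algebraMap K H b ≠ 0 := fun e0 => pow_ne_zero q (hz.ne_zero
      (pow_ne_zero _ hq.ne_zero)) (by rw [← hc, ← hb, map_pow, e0, zero_pow hq.ne_zero])
    obtain ⟨x, hx⟩ := hq1 (z / algebraMap K H b) (by
      rw [div_pow, ← map_pow, hb, hc, div_self]
      exact fun e0 => pow_ne_zero q hb0 (by rw [← map_pow, hb, hc, e0]))
    exact hzK (x * b) (by rw [map_mul, hx, div_mul_cancel₀ _ hb0])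
  obtain ⟨E, hEdef⟩ : ∃ E : IntermediateField K H, E = IntermediateField.adjoin K {z} := ⟨_, rfl⟩
  have hEfin : Module.finrank K E = q := by
    rw [hEdef, IntermediateField.adjoin.finrank (Algebra.IsIntegral.isIntegral z),
      ← minpoly.eq_of_irreducible_of_monic hirr (by simp [hc]) (monic_X_pow_sub_C _ hq.ne_zero),
      natDegree_X_pow_sub_C]
  have hqπ : (q : 𝓞 K) ∉ Ideal.span {π} := fun hmem => by
    have h1 := Ideal.absNorm_dvd_absNorm_of_le ((Ideal.span_singleton_le_iff_mem _).2 hmem)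
    rw [Ideal.absNorm_span_singleton, Ideal.absNorm_span_singleton,
      show (q : 𝓞 K) = algebraMap ℤ (𝓞 K) q by simp, Algebra.norm_algebraMap, Int.natAbs_pow,
      Int.natAbs_natCast] at h1
    obtain ⟨f, -, hf⟩ := (Nat.dvd_prime_pow hq).1 h1
    rcases Nat.eq_zero_or_pos f with rfl | hf0
    · rw [pow_zero] at hf
      exact hπ.not_isUnit (Ideal.span_singleton_eq_top.1 (Ideal.absNorm_eq_one_iff.1
        (by rwa [Ideal.absNorm_span_singleton])))
    have h2 : q ∣ (Algebra.norm ℤ π).natAbs - 1 :=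
      (hEfin ▸ ⟨_, (Module.finrank_mul_finrank K E H).symm⟩ :
        q ∣ Module.finrank K H).trans hdeg
    rw [hf] at h2
    have h3 : q ∣ q ^ f := dvd_pow_self q hf0.ne'
    have h4 := Nat.dvd_sub h3 h2
    rw [Nat.sub_sub_self (Nat.one_le_pow _ _ hq.pos), Nat.dvd_one] at h4
    exact hq.ne_one h4
  obtain ⟨n, hn⟩ : ∃ n, n = q ^ (e + 1) := ⟨_, rfl⟩
  haveI : NeZero n := ⟨hn ▸ pow_ne_zero _ hq.ne_zero⟩
  haveI : IsMulCommutative (H ≃ₐ[K] H) := ⟨⟨hab⟩⟩
  haveI : E.fixingSubgroup.Normal := ⟨fun g hg k => by rwa [hab k g, mul_inv_cancel_right]⟩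
  haveI : IsGalois K E := by
    rw [← IsGalois.fixedField_fixingSubgroup E]
    exact IsGalois.of_fixedField_normal_subgroup _
  haveI : IsMulCommutative (E ≃ₐ[K] E) := ⟨⟨fun g h => by
    obtain ⟨g', rfl⟩ := AlgEquiv.restrictNormalHom_surjective (F := K) (K₁ := E) H g
    obtain ⟨h', rfl⟩ := AlgEquiv.restrictNormalHom_surjective (F := K) (K₁ := E) H h
    rw [← map_mul, ← map_mul, hab]⟩⟩
  haveI : IsUnramifiedAtInfinitePlaces K E := IsUnramifiedAtInfinitePlaces.bot K E H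
  haveI : Algebra.Unramified (𝓞 K) (𝓞 E) := by
    refine Algebra.unramified_iff_forall.2 fun P => ?_
    haveI := P.2
    refine not_dvd_differentIdeal_iff.1 fun hdvd => ?_
    have hP0 : P.1 ≠ ⊥ := fun h0 =>
      differentIdeal_ne_bot (zero_dvd_iff.1 (Ideal.zero_eq_bot (R := 𝓞 E) ▸ h0 ▸ hdvd))
    have hzn : z ^ n = 1 := hn ▸ hz.pow_eq_one
    obtain ⟨x, hx⟩ : ∃ x : 𝓞 E, ((x : E) : H) = z :=
      ⟨⟨⟨z, hEdef ▸ IntermediateField.mem_adjoin_simple_self K z⟩, (isIntegral_algHom_iff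
        ((IntermediateField.val E).restrictScalars ℤ) Subtype.val_injective).1
          (IsIntegral.of_pow (NeZero.pos n) (hzn.symm ▸ isIntegral_one))⟩, rfl⟩
    have hxn : x ^ n = 1 := RingOfIntegers.ext (Subtype.ext (by
      simpa using (congrArg (· ^ n) hx).trans hzn))
    have hgen : Algebra.adjoin K {(x : E)} = ⊤ := by
      rw [← IntermediateField.adjoin_simple_toSubalgebra_of_isAlgebraic
        (Algebra.IsAlgebraic.isAlgebraic (x : E)), ← IntermediateField.top_toSubalgebra]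
      refine congrArg _ (IntermediateField.lift_injective E ?_)
      rw [IntermediateField.lift_adjoin_simple, IntermediateField.lift_top]
      exact (congrArg (fun t => IntermediateField.adjoin K {t}) hx).trans hEdef.symm
    obtain ⟨r, hr⟩ : minpoly (𝓞 K) x ∣ X ^ n - 1 :=
      minpoly.isIntegrallyClosed_dvd (Algebra.IsIntegral.isIntegral x) (by simp [hxn])
    have hmem : (n : 𝓞 E) * x ^ (n - 1) ∈ differentIdeal (𝓞 K) (𝓞 E) := by
      rw [show (n : 𝓞 E) * x ^ (n - 1) = aeval x (derivative (X ^ n - 1 : (𝓞 K)[X])) by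
        simp [derivative_pow], hr, derivative_mul, map_add, map_mul, map_mul, minpoly.aeval,
        zero_mul, add_zero]
      exact Ideal.mul_mem_right _ _ (aeval_derivative_mem_differentIdeal (𝓞 K) K E x hgen)
    have hnP : (q : 𝓞 E) ∈ P.1 := by
      rcases P.2.mem_or_mem ((Ideal.dvd_iff_le.1 hdvd) hmem) with h | h
      · rw [hn, Nat.cast_pow] at h
        exact P.2.mem_of_pow_mem _ h
      · exact absurd (Ideal.eq_top_of_isUnit_mem _ h ((IsUnit.of_pow_eq_one hxn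
          (NeZero.ne n)).pow _)) P.2.ne_top
    have hPmax : P.1.IsMaximal := P.2.isMaximal hP0
    obtain ⟨Q, hQmax, hQover⟩ := Ideal.exists_maximal_ideal_liesOver_of_isIntegral (S := 𝓞 H) P.1
    haveI := hQmax.isPrime
    obtain ⟨Qv, hQv⟩ : ∃ Qv : HeightOneSpectrum (𝓞 H), Qv.asIdeal = Q :=
      ⟨⟨Q, hQmax.isPrime, Ring.ne_bot_of_isMaximal_of_not_isField hQmax
        (RingOfIntegers.not_isField H)⟩, rfl⟩
    have hQK : π ∉ Qv.asIdeal.under (𝓞 K) := fun hπQ => by
      have hPu : Qv.asIdeal.under (𝓞 K) = P.1.under (𝓞 K) := by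
        rw [hQv, hQover.over, Ideal.under_under]
      haveI : (P.1.under (𝓞 K)).IsMaximal := Ideal.IsMaximal.under _ _
      have hle : Ideal.span {π} = P.1.under (𝓞 K) :=
        (((Ideal.span_singleton_prime hπ.ne_zero).2 hπ).isMaximal
          (by simpa using hπ.ne_zero)).eq_of_le
          (Ideal.IsMaximal.ne_top ‹_›) ((Ideal.span_singleton_le_iff_mem _).2 (hPu ▸ hπQ))
      refine hqπ ?_
      rw [hle, Ideal.mem_comap, map_natCast]
      exact hnP
    have hQu : Algebra.IsUnramifiedAt (𝓞 K) Q := by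
      have hram : ¬ FA.ArtinRec.IsRam H (FA.ArtinRec.belowP K Qv) := by
        rintro ⟨Q', hQ', hne⟩
        exact hne (hin Q' fun h => hQK (by
          have e := congrArg HeightOneSpectrum.asIdeal hQ'
          exact (show Q'.asIdeal.under (𝓞 K) = Qv.asIdeal.under (𝓞 K) from e) ▸ h))
      have h1 := FA.ArtinRec.eIdx_eq_one (K := K) (Q := Qv) hram
      haveI := Qv.isPrime
      haveI : Qv.asIdeal.LiesOver (FA.ArtinRec.belowP K Qv).asIdeal := ⟨rfl⟩
      rw [FA.ArtinRec.eIdx,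
        Ideal.ramificationIdx'_eq_ramificationIdx _ _ (FA.ArtinRec.belowP K Qv).ne_bot] at h1
      exact hQv ▸ Ideal.ramificationIdx_eq_one_iff.1 h1
    refine (not_dvd_differentIdeal_iff (A := 𝓞 K)).2 hQu ?_
    rw [differentIdeal_eq_differentIdeal_mul_differentIdeal (𝓞 K) (𝓞 E) (𝓞 H)]
    refine dvd_mul_of_dvd_right ((Ideal.dvd_iff_le.2 ?_).trans
      (map_dvd (Ideal.mapHom (algebraMap (𝓞 E) (𝓞 H))) hdvd)) _
    exact Ideal.map_le_iff_le_comap.2 hQover.over.le
  exact hq.ne_one (hEfin.symm.trans finrank_eq_one_of_unramified)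

/-- The Artin map factors through the invertible residues. -/
theorem natCard_dvd_pred_norm {π : 𝓞 K} (hπ : π ≠ 0) [hmax : (Ideal.span {π}).IsMaximal]
    {G : Type*} [Group G] (ω : RayClassGroup (Ideal.span {π}) →* G) (hsurj : Function.Surjective ω)
    (hker : semiClasses (show Ideal.span {π} ≠ ⊥ by simpa using hπ) (∅ : Set (InfinitePlace K)) ≤
      ω.ker) : Nat.card G ∣ (Algebra.norm ℤ π).natAbs - 1 := by
  obtain ⟨𝔪, h𝔪def⟩ : ∃ 𝔪 : Ideal (𝓞 K), 𝔪 = Ideal.span {π} := ⟨_, rfl⟩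
  subst h𝔪def
  have h𝔪 : Ideal.span {π} ≠ (⊥ : Ideal (𝓞 K)) := by simpa using hπ
  letI := Ideal.Quotient.field (Ideal.span {π})
  haveI : Finite (𝓞 K ⧸ Ideal.span {π}) := Ideal.finiteQuotientOfFreeOfNeBot _ h𝔪
  have hI : ∀ x : 𝓞 K, x ∉ Ideal.span {π} →
      ∃ I : coprimeIdeals (Ideal.span {π}), I.1.1 = Ideal.span {x} := fun x hx =>
    ⟨⟨⟨Ideal.span {x}, mem_nonZeroDivisors_iff_ne_zero.2 (by
        simpa using fun e : x = 0 => hx (e ▸ zero_mem _))⟩, by
      show Ideal.span {x} ⊔ Ideal.span {π} = ⊤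
      rw [sup_comm]
      exact hmax.1.2 _ (left_lt_sup.2 fun h => hx (h (Ideal.mem_span_singleton_self x)))⟩, rfl⟩
  choose J hJ using hI
  have hclass : ∀ (x : 𝓞 K) (I : coprimeIdeals (Ideal.span {π})), x ∉ Ideal.span {π} →
      x - 1 ∈ Ideal.span {π} → I.1.1 = Ideal.span {x} → ω (rayClass h𝔪 I) = 1 :=
    fun x I hx hx1 he => by
      have hs : IsSemiRay (Ideal.span {π}) (∅ : Set (InfinitePlace K)) x :=
        ⟨fun e => hx (e ▸ zero_mem _), hx1, fun w hw => absurd hw (Set.notMem_empty w)⟩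
      rw [show I = hs.ideal from Subtype.ext (Subtype.ext he)]
      exact hker (hs.rayClass_mem h𝔪)
  have hmul : ∀ (x y : 𝓞 K) (hx : x ∉ Ideal.span {π}) (hy : y ∉ Ideal.span {π})
      (hxy : x * y ∉ Ideal.span {π}), ω (rayClass h𝔪 (J x hx)) * ω (rayClass h𝔪 (J y hy)) =
        ω (rayClass h𝔪 (J (x * y) hxy)) := fun x y hx hy hxy => by
    rw [← map_mul, ← map_mul]
    refine congrArg (fun I => ω (rayClass h𝔪 I)) (Subtype.ext (Subtype.ext ?_))
    rw [Submonoid.coe_mul, Submonoid.coe_mul, hJ, hJ, hJ, Ideal.span_singleton_mul_span_singleton]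
  have hcongr : ∀ (x y : 𝓞 K) (hx : x ∉ Ideal.span {π}) (hy : y ∉ Ideal.span {π}),
      x - y ∈ Ideal.span {π} → ω (rayClass h𝔪 (J x hx)) = ω (rayClass h𝔪 (J y hy)) :=
    fun x y hx hy hxy => by
      obtain ⟨c, hc⟩ : ∃ c, y * c - 1 ∈ Ideal.span {π} := by
        obtain ⟨c, hc⟩ := Ideal.Quotient.mk_surjective (Ideal.Quotient.mk (Ideal.span {π}) y)⁻¹
        refine ⟨c, ?_⟩
        rw [← Ideal.Quotient.eq, map_mul, map_one, hc, mul_inv_cancel₀]
        rwa [Ne, Ideal.Quotient.eq_zero_iff_mem]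
      have hc0 : c ∉ Ideal.span {π} := fun h => hmax.ne_top ((Ideal.eq_top_iff_one _).2 (by
        have := sub_mem (Ideal.mul_mem_left _ y h) hc
        simpa using this))
      have hp := hmax.isPrime
      have hyc : y * c ∉ Ideal.span {π} := fun h => (hp.mem_or_mem h).elim hy hc0
      have hxc : x * c ∉ Ideal.span {π} := fun h => (hp.mem_or_mem h).elim hx hc0
      have e1 : ω (rayClass h𝔪 (J (y * c) hyc)) = 1 := hclass _ _ hyc hc (hJ _ _)
      have e2 : ω (rayClass h𝔪 (J (x * c) hxc)) = 1 := hclass _ _ hxc (by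
        rw [show x * c - 1 = (x - y) * c + (y * c - 1) by ring]
        exact add_mem (Ideal.mul_mem_right _ _ hxy) hc) (hJ _ _)
      exact mul_right_cancel ((hmul x c hx hc0 hxc).trans
        (e2.trans (e1.symm.trans (hmul y c hy hc0 hyc).symm)))
  have hrep : ∀ u : (𝓞 K ⧸ Ideal.span {π})ˣ,
      ∃ x : 𝓞 K, x ∉ Ideal.span {π} ∧ Ideal.Quotient.mk (Ideal.span {π}) x = u := fun u => by
    obtain ⟨x, hx⟩ := Ideal.Quotient.mk_surjective (u : 𝓞 K ⧸ Ideal.span {π})
    exact ⟨x, fun h => u.ne_zero (hx ▸ Ideal.Quotient.eq_zero_iff_mem.2 h), hx⟩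
  choose r hr hru using hrep
  obtain ⟨f, hf⟩ : ∃ f : (𝓞 K ⧸ Ideal.span {π})ˣ →* G,
      ∀ u, f u = ω (rayClass h𝔪 (J (r u) (hr u))) :=
    ⟨MonoidHom.mk' (fun u => ω (rayClass h𝔪 (J (r u) (hr u)))) fun u v => by
      have huv : r u * r v ∉ Ideal.span {π} := fun h =>
        (hmax.isPrime.mem_or_mem h).elim (hr u) (hr v)
      show _ = _ * _
      rw [hmul _ _ (hr u) (hr v) huv]
      refine hcongr _ _ _ _ ?_
      rw [← Ideal.Quotient.eq, map_mul, hru, hru, hru, Units.val_mul], fun u => rfl⟩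
  have hfs : Function.Surjective f := fun g => by
    obtain ⟨γ, rfl⟩ := hsurj g
    obtain ⟨I, rfl⟩ := FA.Hecke.rayClass_surjective h𝔪 γ
    obtain ⟨x, hx⟩ := (IsPrincipalIdealRing.principal I.1.1).1
    rw [← Ideal.span] at hx
    have hx0 : x ∉ Ideal.span {π} := fun h => hmax.ne_top (by
      have hI2 : I.1.1 ⊔ Ideal.span {π} = ⊤ := I.2
      rwa [hx, sup_eq_right.2 ((Ideal.span_singleton_le_iff_mem _).2 h)] at hI2)
    obtain ⟨u, hu⟩ : ∃ u : (𝓞 K ⧸ Ideal.span {π})ˣ,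
        (u : 𝓞 K ⧸ Ideal.span {π}) = Ideal.Quotient.mk (Ideal.span {π}) x :=
      ⟨Units.mk0 _ fun e => hx0 (Ideal.Quotient.eq_zero_iff_mem.1 e), rfl⟩
    refine ⟨u, ?_⟩
    rw [hf, show I = J x hx0 from Subtype.ext (Subtype.ext (hx.trans (hJ x hx0).symm))]
    exact hcongr _ _ _ _ (by rw [← Ideal.Quotient.eq, hru, hu])
  refine (Subgroup.card_dvd_of_surjective f hfs).trans (dvd_of_eq ?_)
  rw [Nat.card_units, ← Submodule.cardQuot_apply, ← Ideal.absNorm_apply,
    Ideal.absNorm_span_singleton]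

/-- **The class field of the class of `a` modulo `π`.** -/
theorem exists_classField_residue {π a : 𝓞 K} (hπ : Prime π) (ha : ¬ π ∣ a) :
    ∃ (H : Type u) (_ : Field H) (_ : NumberField H) (_ : Algebra K H) (_ : IsGalois K H),
      (∀ g h : H ≃ₐ[K] H, g * h = h * g) ∧
      (∀ (q : ℕ) (z : H), q.Prime → q ∣ Units.torsionOrder K →
        ¬ IsPrimitiveRoot z (q ^ ((Units.torsionOrder K).factorization q + 1))) ∧
      ∃ s : H ≃ₐ[K] H, ∀ (v : HeightOneSpectrum (𝓞 K)) (Q : HeightOneSpectrum (𝓞 H)),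
        π ∉ v.asIdeal → Q.asIdeal.under (𝓞 K) = v.asIdeal → IsArithFrobAt (𝓞 K) s Q.asIdeal →
          ∃ r : 𝓞 K, v.asIdeal = Ideal.span {r} ∧ π ∣ a - r := by
  obtain ⟨𝔪, h𝔪def⟩ : ∃ 𝔪 : Ideal (𝓞 K), 𝔪 = Ideal.span {π} := ⟨_, rfl⟩
  have h𝔪 : 𝔪 ≠ ⊥ := by rw [h𝔪def, Ne, Ideal.span_singleton_eq_bot]; exact hπ.ne_zero
  have hmax : 𝔪.IsMaximal := h𝔪def ▸ ((Ideal.span_singleton_prime hπ.ne_zero).2 hπ).isMaximal
    (by simpa using hπ.ne_zero)
  obtain ⟨H, iF, iN, iA, iG, hab, hin, hinf, ω, hsurj, hker, hω⟩ :=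
    FA.Summary.existence_theorem K h𝔪 ∅ (semiClasses h𝔪 ∅) fun x I hx0 hx1 _ hI => by
      have hx : IsSemiRay 𝔪 (∅ : Set (InfinitePlace K)) x :=
        ⟨hx0, hx1, fun w hw => absurd hw (Set.notMem_empty w)⟩
      rw [show I = hx.ideal from Subtype.ext (Subtype.ext hI)]
      exact hx.rayClass_mem h𝔪
  haveI : IsUnramifiedAtInfinitePlaces K H := ⟨fun w => hinf w (Set.notMem_empty _)⟩
  have hdeg : Module.finrank K H ∣ (Algebra.norm ℤ π).natAbs - 1 := by
    subst h𝔪def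
    rw [← IsGalois.card_aut_eq_finrank]
    exact natCard_dvd_pred_norm hπ.ne_zero (hmax := hmax) ω hsurj hker.ge
  have ha0 : a ≠ 0 := fun e => ha (e ▸ dvd_zero π)
  have hcop : Ideal.span {a} ⊔ 𝔪 = ⊤ := by
    rw [sup_comm]
    exact hmax.1.2 _ (left_lt_sup.2 fun h => ha (by
      rw [h𝔪def, Ideal.span_singleton_le_span_singleton] at h
      exact h))
  obtain ⟨J, hJ⟩ : ∃ J : coprimeIdeals 𝔪, J.1.1 = Ideal.span {a} :=
    ⟨⟨⟨Ideal.span {a}, mem_nonZeroDivisors_iff_ne_zero.2 (by simpa using ha0)⟩, hcop⟩, rfl⟩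
  refine ⟨H, iF, iN, iA, iG, hab, fun q z hq hqw => not_isPrimitiveRoot_next hab hπ hdeg
    (fun Q hQ => hin Q ((FA.ArtinRec.belowP K Q).isMaximal.1.2 _ (left_lt_sup.2 fun h =>
      hQ (h (h𝔪def.symm.le (Ideal.mem_span_singleton_self π)))))) hq hqw, ω (rayClass h𝔪 J),
    fun v Q hv hQv hfrob => ?_⟩
  have hv' : v.asIdeal ⊔ 𝔪 = ⊤ := v.isMaximal.1.2 _ (left_lt_sup.2 fun h =>
    hv (h (h𝔪def ▸ Ideal.mem_span_singleton_self π)))
  obtain ⟨P, hP⟩ : ∃ P : coprimeIdeals 𝔪, P = ⟨primeIdeal v, hv'⟩ := ⟨_, rfl⟩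
  have h1 : rayClass h𝔪 P * (rayClass h𝔪 J)⁻¹ ∈ semiClasses h𝔪 (∅ : Set (InfinitePlace K)) := by
    rw [← hker, MonoidHom.mem_ker, map_mul, map_inv, hP, hω v hv' Q _ hQv hfrob, mul_inv_cancel]
  obtain ⟨I, hI, x, y, hx0, hy0, hx, hy, he⟩ := exists_rep_of_mem_semiClasses h𝔪 h1
  have h2 : rayClass h𝔪 P = rayClass h𝔪 (I * J) := by rw [map_mul, hI, inv_mul_cancel_right]
  obtain ⟨b, c, hb, hc, he2⟩ := (FA.Hecke.rayClass_eq_iff h𝔪).1 h2
  obtain ⟨r₀, hr₀⟩ := (IsPrincipalIdealRing.principal v.asIdeal).1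
  rw [← Ideal.span] at hr₀
  rw [hP, Submonoid.coe_mul, Submonoid.coe_mul, hJ] at he2
  have h3 : Ideal.span {x * b * r₀} = Ideal.span {c * y * a} := by
    rw [← Ideal.span_singleton_mul_span_singleton, ← Ideal.span_singleton_mul_span_singleton,
      ← Ideal.span_singleton_mul_span_singleton, ← Ideal.span_singleton_mul_span_singleton,
      mul_assoc (Ideal.span {x}), ← hr₀]
    exact (congrArg (Ideal.span {x} * ·) he2).trans (by rw [← he]; ring)
  obtain ⟨u, hu⟩ := Ideal.span_singleton_eq_span_singleton.1 h3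
  refine ⟨r₀ * u, by rw [hr₀, Ideal.span_singleton_mul_right_unit u.isUnit], ?_⟩
  rw [← Ideal.mem_span_singleton, ← h𝔪def, ← Ideal.Quotient.mk_eq_mk_iff_sub_mem]
  have hb' : Ideal.Quotient.mk 𝔪 b = 1 := by
    rw [← map_one (Ideal.Quotient.mk 𝔪), Ideal.Quotient.mk_eq_mk_iff_sub_mem]
    exact hb.2.1
  have hc' : Ideal.Quotient.mk 𝔪 c = 1 := by
    rw [← map_one (Ideal.Quotient.mk 𝔪), Ideal.Quotient.mk_eq_mk_iff_sub_mem]
    exact hc.2.1
  have h4 := congrArg (Ideal.Quotient.mk 𝔪) hu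
  simp only [map_mul, hx, hy, hb', hc', one_mul] at h4
  rw [map_mul, h4]

/-- A prime in every invertible class modulo `b`. -/
theorem exists_prime_congr {a b : 𝓞 K} (hb : b ≠ 0) (hab : IsCoprime a b) :
    ∃ r : 𝓞 K, b ∣ a - r ∧ (IsUnit r ∨ Prime r) := by
  rcases eq_or_ne a 0 with rfl | ha
  · exact ⟨1, (isCoprime_zero_left.1 hab).dvd, Or.inl isUnit_one⟩
  have h𝔪 : Ideal.span {b} ≠ (⊥ : Ideal (𝓞 K)) := by simpa using hb
  have hI : Ideal.span {a} ≠ (⊥ : Ideal (𝓞 K)) := by simpa using ha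
  have hcop : Ideal.span {a} ⊔ Ideal.span {b} = ⊤ :=
    Ideal.isCoprime_iff_sup_eq.1 ((Ideal.isCoprime_span_singleton_iff a b).2 hab)
  obtain ⟨v, -, x, y, hx, hy, he⟩ :=
    (FA.Summary.infinite_primes_in_rayClass K h𝔪 hI hcop).nonempty
  obtain ⟨r₀, hr₀⟩ := (IsPrincipalIdealRing.principal v.asIdeal).1
  rw [← Ideal.span] at hr₀
  rw [hr₀, Ideal.span_singleton_mul_span_singleton, Ideal.span_singleton_mul_span_singleton,
    Ideal.span_singleton_eq_span_singleton] at he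
  obtain ⟨u, hu⟩ := he
  have hr0 : r₀ ≠ 0 := fun e => v.ne_bot (by rw [hr₀, e]; simp)
  have hp : Prime r₀ := (Ideal.span_singleton_prime hr0).1 (hr₀ ▸ v.isPrime)
  refine ⟨r₀ * u, ?_, Or.inr ((associated_mul_unit_right r₀ u u.isUnit).prime hp)⟩
  rw [← Ideal.mem_span_singleton, ← Ideal.Quotient.mk_eq_mk_iff_sub_mem]
  have hx' : Ideal.Quotient.mk (Ideal.span {b}) x = 1 := by
    rw [← map_one (Ideal.Quotient.mk (Ideal.span {b})), Ideal.Quotient.mk_eq_mk_iff_sub_mem]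
    exact hx.2.1
  have hy' : Ideal.Quotient.mk (Ideal.span {b}) y = 1 := by
    rw [← map_one (Ideal.Quotient.mk (Ideal.span {b})), Ideal.Quotient.mk_eq_mk_iff_sub_mem]
    exact hy.2.1
  have h4 := congrArg (Ideal.Quotient.mk (Ideal.span {b})) hu
  simp only [map_mul, hx', hy', one_mul] at h4
  rw [map_mul, h4]

end FA.Weinberger

end
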