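import Fermat.Agent.Weinberger.Frobenius
import Fermat.Agent.ArtinHooley.Ranges
import Fermat.Agent.Root.SummaryFrobenius
import Fermat.Agent.EffectiveChebotarev.LeastPrime

/-!
# The counts

A prime number lies below at most `n` primes; the primes dividing some `ε ^ j - 1`, `j ≤ y`, are
`O (y ^ 2)`; and on the Riemann hypothesis the primes of the chosen Frobenius class where `ε` is a
`q`-th power residue are at most `w / (q (q - 1)) ∫ dt / log t` up to the error term.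
-/

set_option autoImplicit false
set_option linter.style.haveILetI false

noncomputable section

open NumberField IsDedekindDomain Module Polynomial Finset
open FA.ArtinHooley (FieldRH fieldSize logInt)
open FA.Hecke (primesLE mem_primesLE)
open FA.NaturalChebotarev (countIn someFrobSet)
open FA.Chebotarev (strictFrobSet)
open FA.ChebError (share share_nonneg)
open scoped Classical

namespace FA.Weinberger

variable {K : Type} [Field K] [NumberField K]

set_option linter.deprecated false in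
/-- At most `[K : ℚ]` primes lie over each prime number. -/
theorem card_le_of_over (S : Finset (HeightOneSpectrum (𝓞 K))) (P : Finset ℕ)
    (h : ∀ v ∈ S, ∃ p ∈ P, p.Prime ∧ (p : 𝓞 K) ∈ v.asIdeal) :
    S.card ≤ finrank ℚ K * P.card := by
  refine (card_le_card (t := (P.filter Nat.Prime).biUnion fun p =>
    S.filter fun v => (p : 𝓞 K) ∈ v.asIdeal) fun v hv => ?_).trans ?_
  · obtain ⟨p, hp, hpp, hpv⟩ := h v hv
    exact mem_biUnion.2 ⟨p, mem_filter.2 ⟨hp, hpp⟩, mem_filter.2 ⟨hv, hpv⟩⟩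
  refine (card_biUnion_le_card_mul _ _ (finrank ℚ K) fun p hp => ?_).trans ?_
  · have hpp := (mem_filter.1 hp).2
    haveI : (Ideal.span {(p : ℤ)}).IsMaximal :=
      PrincipalIdealRing.isMaximal_of_irreducible (Nat.prime_iff_prime_int.1 hpp).irreducible
    have hp0 : Ideal.span {(p : ℤ)} ≠ ⊥ := by simpa using hpp.ne_zero
    refine le_trans ?_ (Ideal.card_primesOverFinset_le_finrank (S := 𝓞 K) ℚ K hp0)
    refine card_le_card_of_injOn (fun v => v.asIdeal) (fun v hv => ?_)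
      fun v _ w _ e => HeightOneSpectrum.ext e
    rw [mem_coe, mem_filter] at hv
    rw [mem_coe, IsDedekindDomain.mem_primesOverFinset_iff hp0]
    exact ⟨v.isPrime, ⟨(FA.FrobeniusDensity.under_eq hpp v.isPrime.ne_top hv.2).symm⟩⟩
  · rw [mul_comm]
    exact Nat.mul_le_mul_left _ (card_filter_le _ _)

theorem log_norm_pow_sub_one_le (x : 𝓞 K) : ∃ c : ℝ, 0 ≤ c ∧ ∀ j : ℕ, 1 ≤ j → x ^ j ≠ 1 →
    Real.log (((Algebra.norm ℤ (x ^ j - 1)).natAbs : ℕ) : ℝ) ≤ c * j := by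
  obtain ⟨B, hB⟩ : ∃ B : ℝ, B = 1 + ∑ w : InfinitePlace K, w (x : K) := ⟨_, rfl⟩
  have hB1 : 1 ≤ B := hB ▸ le_add_of_nonneg_right (sum_nonneg fun w _ => apply_nonneg _ _)
  refine ⟨finrank ℚ K * Real.log (2 * B), mul_nonneg (Nat.cast_nonneg _)
    (Real.log_nonneg (by linarith)), fun j hj hxj => ?_⟩
  obtain ⟨y, hy⟩ : ∃ y : 𝓞 K, y = x ^ j - 1 := ⟨_, rfl⟩
  have hy0 : y ≠ 0 := fun e => hxj (sub_eq_zero.1 (hy ▸ e))
  rw [← hy]
  have hw : ∀ w : InfinitePlace K, w (y : K) ≤ (2 * B) ^ j := fun w => by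
    rw [hy, show ((x ^ j - 1 : 𝓞 K) : K) = (x : K) ^ j + (-1) by simp [sub_eq_add_neg]]
    refine (w.1.add_le _ _).trans ?_
    rw [map_pow, AbsoluteValue.map_neg, map_one]
    show w (x : K) ^ j + 1 ≤ _
    have h1 : w (x : K) ≤ B := by
      rw [hB]
      linarith [single_le_sum (fun v _ => apply_nonneg v (x : K)) (mem_univ w)]
    have h2 := pow_le_pow_left₀ (apply_nonneg w (x : K)) h1 j
    have h3 : 1 ≤ B ^ j := one_le_pow₀ hB1
    have h4 : (2 : ℝ) ≤ 2 ^ j := le_self_pow₀ one_le_two (by omega)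
    rw [mul_pow]
    nlinarith
  have hnorm : (((Algebra.norm ℤ y).natAbs : ℕ) : ℝ) ≤ ((2 * B) ^ j) ^ finrank ℚ K := by
    have h := InfinitePlace.prod_eq_abs_norm (y : K)
    rw [← InfinitePlace.sum_mult_eq (K := K), ← Finset.prod_pow_eq_pow_sum]
    refine le_trans (le_of_eq ?_) (prod_le_prod (fun w _ => by positivity)
      fun w _ => pow_le_pow_left₀ (apply_nonneg _ _) (hw w) w.mult)
    rw [h, Nat.cast_natAbs, ← Algebra.coe_norm_int y]
    simp
  have hpos : (0 : ℝ) < ((Algebra.norm ℤ y).natAbs : ℕ) := Nat.cast_pos.2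
    (Int.natAbs_pos.2 (Algebra.norm_ne_zero_iff.2 hy0))
  refine (Real.log_le_log hpos hnorm).trans (le_of_eq ?_)
  rw [Real.log_pow, Real.log_pow]
  ring

/-- The primes dividing some `x ^ j - 1`, `j ≤ y`. -/
theorem exists_card_smallOrder_le (x : 𝓞 K) (hx : ∀ j : ℕ, 1 ≤ j → x ^ j ≠ 1) :
    ∃ c : ℝ, 0 ≤ c ∧ ∀ (y : ℕ) (S : Finset (HeightOneSpectrum (𝓞 K))),
      (∀ v ∈ S, (Ideal.absNorm v.asIdeal).Prime ∧ ∃ j ∈ Icc 1 y, x ^ j - 1 ∈ v.asIdeal) →
        (S.card : ℝ) ≤ c * (y : ℝ) ^ 2 := by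
  obtain ⟨c, hc, hlog⟩ := log_norm_pow_sub_one_le x
  refine ⟨finrank ℚ K * (2 * c), by positivity, fun y S hS => ?_⟩
  obtain ⟨P, hP⟩ : ∃ P, P = (Icc 1 y).biUnion
      fun j => (Algebra.norm ℤ (x ^ j - 1)).natAbs.primeFactors := ⟨_, rfl⟩
  have h1 : S.card ≤ finrank ℚ K * P.card := card_le_of_over S P fun v hv => by
    obtain ⟨hp, j, hj, hv'⟩ := hS v hv
    refine ⟨_, ?_, hp, Ideal.absNorm_mem v.asIdeal⟩
    rw [hP, mem_biUnion]
    refine ⟨j, hj, Nat.mem_primeFactors.2 ⟨hp, ?_, ?_⟩⟩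
    · rw [← Ideal.absNorm_span_singleton]
      exact Ideal.absNorm_dvd_absNorm_of_le ((Ideal.span_singleton_le_iff_mem _).2 hv')
    · rw [Int.natAbs_ne_zero]
      exact Algebra.norm_ne_zero_iff.2 (sub_ne_zero.2 (hx j (mem_Icc.1 hj).1))
  have h2 : (P.card : ℝ) ≤ 2 * c * (y : ℝ) ^ 2 := by
    rw [hP]
    refine (Nat.cast_le.2 card_biUnion_le).trans ?_
    push_cast
    refine (sum_le_card_nsmul _ _ (2 * c * y) fun j hj => ?_).trans (le_of_eq ?_)
    · rw [mem_Icc] at hj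
      obtain ⟨b, hb⟩ : ∃ b, b = (Algebra.norm ℤ (x ^ j - 1)).natAbs := ⟨_, rfl⟩
      have hb0 : b ≠ 0 := hb ▸ Int.natAbs_ne_zero.2
        (Algebra.norm_ne_zero_iff.2 (sub_ne_zero.2 (hx j hj.1)))
      rw [← hb]
      have hpow : 2 ^ b.primeFactors.card ≤ b :=
        (Finset.pow_card_le_prod _ _ _ fun p hp => (Nat.prime_of_mem_primeFactors hp).two_le).trans
          (Nat.le_of_dvd (Nat.pos_of_ne_zero hb0) (Nat.prod_primeFactors_dvd b))
      have h3 := (Real.log_le_log (by positivity)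
        (show (2 : ℝ) ^ b.primeFactors.card ≤ b by exact_mod_cast hpow)).trans
          (hb ▸ hlog j hj.1 (hx j hj.1))
      rw [Real.log_pow] at h3
      nlinarith [Real.log_two_gt_d9, mul_le_mul_of_nonneg_left (Nat.cast_le.2 hj.2 :
        (j : ℝ) ≤ y) hc, Nat.cast_nonneg (α := ℝ) b.primeFactors.card]
    · rw [Nat.card_Icc, Nat.add_sub_cancel, nsmul_eq_mul]
      ring
  refine (Nat.cast_le.2 h1).trans ?_
  rw [Nat.cast_mul, mul_assoc]
  exact mul_le_mul_of_nonneg_left h2 (Nat.cast_nonneg _)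

variable {H : Type} [Field H] [NumberField H] [Algebra K H] [IsGalois K H]

omit [NumberField K] [IsGalois K H] [NumberField H] in
/-- The smaller polynomial splits in the larger field. -/
theorem splits_of_gens {ε : K} {M s q : ℕ} [NeZero M] [NeZero q] (hsm : s ∣ M) {L : Type}
    [Field L] [NumberField L] [Algebra K L] [Algebra H L] [IsScalarTower K H L] {ζ α : L}
    (hζ : IsPrimitiveRoot ζ (M * q)) (hα : α ^ (s * q) = algebraMap K L ε) :
    (((X ^ M - 1) * (X ^ s - Polynomial.C (algebraMap K H ε)) : H[X]).map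
      (algebraMap H L)).Splits := by
  rw [Polynomial.map_mul, Polynomial.map_sub, Polynomial.map_sub, Polynomial.map_pow,
    Polynomial.map_pow, Polynomial.map_X, Polynomial.map_one, Polynomial.map_C,
    ← IsScalarTower.algebraMap_apply, ← Polynomial.C_1]
  have hz : IsPrimitiveRoot (ζ ^ q) M := hζ.pow (NeZero.pos _) (mul_comm M q)
  obtain ⟨c, hc⟩ := hsm
  exact (X_pow_sub_C_splits_of_isPrimitiveRoot hz (α := 1) (one_pow M)).mul
    (X_pow_sub_C_splits_of_isPrimitiveRoot (hz.pow (NeZero.pos M) (hc.trans (mul_comm s c)))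
      (α := α ^ q) (by rw [← pow_mul, mul_comm q s, hα]))

section

variable {F L : Type} [Field F] [NumberField F] [Algebra K F] [Algebra H F] [IsScalarTower K H F]
  [IsGalois K F] [Field L] [NumberField L] [Algebra K L] [Algebra H L] [IsScalarTower K H L]
  [IsGalois K L] [Algebra F L] [IsScalarTower K F L] [IsScalarTower H F L]

/-- The same in given fields `L ⊃ F`, for one `q`, with `A` from Chebotarev's theorem. -/
theorem count_residue_le {A : ℝ} (hA : 0 ≤ A) (hRH : FieldRH L)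
    (hcount : FieldRH L → ∀ D : Set (L ≃ₐ[K] L), (∀ g ∈ D, ∀ x, x * g * x⁻¹ ∈ D) →
      ∀ x : ℝ, 2 ≤ x →
        |(countIn (someFrobSet K L D) x : ℝ) - share D * ∫ t in (2 : ℝ)..x, 1 / Real.log t| ≤
          A * share D * fieldSize L * (√x * Real.log x ^ 4))
    (hab : ∀ g h : H ≃ₐ[K] H, g * h = h * g) (ε : (𝓞 K)ˣ)
    (hpow : ∀ q : ℕ, q.Prime → ∀ β : K, β ^ q ≠ ((ε : 𝓞 K) : K)) {M s : ℕ} [NeZero M]
    [NeZero s] (hs : Squarefree s) (hμ : ∀ q : ℕ, q.Prime → q ∣ s → ∀ x : K, x ^ q = 1 → x = 1)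
    (hsm : s ∣ M)
    (hH : ∀ p : ℕ, p.Prime → (p : ℤ) ∣ discr H → p ∣ M)
    {ζ₀ α₀ : F} (hζ₀ : IsPrimitiveRoot ζ₀ M)
    (hα₀ : α₀ ^ s = algebraMap K F ((ε : 𝓞 K) : K))
    (htop₀ : IntermediateField.adjoin H {ζ₀, α₀} = ⊤)
    {C : Set (F ≃ₐ[K] F)} (hC : ∀ g ∈ C, ∀ x, x * g * x⁻¹ ∈ C) {q : ℕ} (hq : q.Prime)
    (hμq : ∀ x : K, x ^ q = 1 → x = 1) (hqM : ¬ q ∣ M) {ζ α : L} (hζ : IsPrimitiveRoot ζ (M * q))
    (hα : α ^ (s * q) = algebraMap K L ((ε : 𝓞 K) : K))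
    (htop : IntermediateField.adjoin H {ζ, α} = ⊤) {N : ℕ} (hN : 2 ≤ N) :
    ((((primesLE K N).filter fun v => v ∈ strictFrobSet K F C ∧
        ∃ p : ℕ, p.Prime ∧ Ideal.absNorm v.asIdeal = p ∧ q ∣ p - 1 ∧
          (ε : 𝓞 K) ^ ((p - 1) / q) - 1 ∈ v.asIdeal).card : ℕ) : ℝ) ≤
        share C * logInt N * (1 / ((q : ℝ) * (q - 1))) +
          A * (Nat.card C * (finrank ℚ K * (4 + 2 * Real.log M +
            Real.log (((discr H).natAbs : ℕ) : ℝ)))) * (1 + Real.log q) *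
              (√N * Real.log N ^ 4) := by
  haveI : NeZero q := ⟨hq.ne_zero⟩
  obtain ⟨dl, hdl⟩ : ∃ dl, dl = Real.log (((discr H).natAbs : ℕ) : ℝ) := ⟨_, rfl⟩
  rw [← hdl]
  have hdl0 : 0 ≤ dl := hdl ▸ Real.log_natCast_nonneg _
  have hlM : 0 ≤ Real.log M := Real.log_natCast_nonneg M
  have hε0 : ((ε : 𝓞 K) : K) ≠ 0 := RingOfIntegers.coe_ne_zero_iff.2 (Units.ne_zero ε)
  have hFL := mul_pred_le_finrank (F := F) (e := ε) hab rfl hpow hs
    hμ hsm hζ₀ hα₀ htop₀ hq hμq hqM (fun e => hqM (hH q hq e)) hζ hα htop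
  obtain ⟨Cq, hCq⟩ : ∃ Cq : Set (L ≃ₐ[K]
      L),
      Cq = {g | g.restrictNormal F ∈ C ∧
        ∀ y, y ^ q = 1 ∨ y ^ q = algebraMap K _ ((ε : 𝓞 K) : K) → g y = y} := ⟨_, rfl⟩
  have hconj : ∀ g ∈ Cq, ∀ x, x * g * x⁻¹ ∈ Cq := by
    rw [hCq]
    rintro g ⟨hg1, hg2⟩ x
    refine ⟨?_, fun y hy => ?_⟩
    · have h := hC _ hg1 (AlgEquiv.restrictNormalHom F x)
      rw [← map_inv] at h
      show AlgEquiv.restrictNormalHom F (x * g * x⁻¹) ∈ C
      rw [map_mul, map_mul]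
      exact h
    · rw [AlgEquiv.mul_apply, AlgEquiv.mul_apply, hg2 (x⁻¹ y) ?_]
      · exact x.apply_symm_apply y
      · rcases hy with h | h <;> rw [← map_pow, h]
        · exact Or.inl (map_one _)
        · exact Or.inr (x⁻¹.commutes _)
  have hcard : Nat.card Cq ≤ Nat.card C := by
    haveI : Finite C := Subtype.finite
    refine Nat.card_le_card_of_injective
      (fun g => ⟨g.1.restrictNormal F, (hCq.subset g.2).1⟩)
      fun g g' e => ?_
    have hres : ∀ x, g.1 (algebraMap F _ x) =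
        g'.1 (algebraMap F _ x) := fun x => by
      rw [← AlgEquiv.restrictNormal_commutes, ← AlgEquiv.restrictNormal_commutes,
        show g.1.restrictNormal _ = g'.1.restrictNormal _ from congrArg Subtype.val e]
    obtain ⟨Φ, hΦ⟩ : ∃ Φ, Φ = algebraMap F
        L := ⟨_, rfl⟩
    rw [← hΦ] at hres
    have hζ0 : ∀ i, g.1 (ζ ^ (q * i)) = g'.1 (ζ ^ (q * i)) := fun i => by
      have hz : IsPrimitiveRoot (Φ ζ₀) M := hζ₀.map_of_injective Φ.injective
      obtain ⟨j, -, hj⟩ := hz.eq_pow_of_pow_eq_one (ξ := ζ ^ (q * i)) (by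
        rw [← pow_mul, show q * i * M = M * q * i by ring, pow_mul, hζ.pow_eq_one, one_pow])
      rw [← hj, ← map_pow, hres]
    have hfixq : ∀ y : L,
        y ^ q = 1 ∨ y ^ q = algebraMap K _ ((ε : 𝓞 K) : K) → g.1 y = g'.1 y := fun y hy => by
      rw [(hCq.subset g.2).2 y hy, (hCq.subset g'.2).2 y hy]
    refine Subtype.ext (AlgEquiv.ext fun y => ?_)
    have hy : y ∈ IntermediateField.adjoin H {ζ, α} := htop ▸ IntermediateField.mem_top
    induction hy using IntermediateField.adjoin_induction with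
    | mem r hr =>
      rcases hr with hr | hr
      · rw [hr]
        have hne : g'.1 ζ ≠ 0 := by simpa using hζ.ne_zero (NeZero.ne _)
        have h1 : (g.1 ζ / g'.1 ζ) ^ q = 1 := by
          rw [div_pow, ← map_pow, ← map_pow, ← mul_one q, hζ0 1, div_self]
          rw [map_pow]
          exact pow_ne_zero _ hne
        have h2 : (g.1 ζ / g'.1 ζ) ^ M = 1 := by
          rw [div_pow, ← map_pow, ← map_pow, hfixq (ζ ^ M)
            (Or.inl (by rw [← pow_mul, hζ.pow_eq_one])), div_self]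
          rw [map_pow]
          exact pow_ne_zero _ hne
        have h3 := pow_gcd_eq_one.2 ⟨h1, h2⟩
        rw [Nat.Coprime.gcd_eq_one (hq.coprime_iff_not_dvd.2 hqM), pow_one] at h3
        exact (div_eq_one_iff_eq hne).1 h3
      · rw [Set.mem_singleton_iff] at hr
        rw [hr]
        have he0 : algebraMap K L ((ε : 𝓞 K) : K) ≠ 0 := by simp
        have hα0 : α ≠ 0 := fun e => he0 (by
          rw [← hα, e, zero_pow (NeZero.ne _)])
        have hne : g'.1 α ≠ 0 := by simpa using hα0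
        have h1 : (g.1 α / g'.1 α) ^ s = 1 := by
          rw [div_pow, ← map_pow, ← map_pow, hfixq (α ^ s)
            (Or.inr (by rw [← pow_mul, hα])), div_self]
          rw [map_pow]
          exact pow_ne_zero _ hne
        have h2 : (g.1 α / g'.1 α) ^ q = 1 := by
          have hΦα : Φ α₀ ≠ 0 := fun e => he0 (by
            rw [IsScalarTower.algebraMap_apply K F, ← hΦ, ← hα₀,
              map_pow, e, zero_pow (NeZero.ne s)])
          obtain ⟨c, hc⟩ := hsm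
          obtain ⟨i, -, hi⟩ := (hζ₀.map_of_injective Φ.injective).eq_pow_of_pow_eq_one
            (ξ := α ^ q / Φ α₀) (orderOf_dvd_iff_pow_eq_one.1 ((orderOf_dvd_of_pow_eq_one (n := s)
              (by rw [div_pow, ← pow_mul, mul_comm q s, hα, ← map_pow, hα₀, hΦ,
                ← IsScalarTower.algebraMap_apply K F L, div_self he0])).trans ⟨c, hc⟩))
          rw [div_pow, ← map_pow, ← map_pow,
            show α ^ q = Φ (ζ₀ ^ i * α₀) by rw [map_mul, map_pow, hi, div_mul_cancel₀ _ hΦα],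
            hres, div_self]
          simpa [← hi, map_mul] using fun e : g'.1 (Φ (ζ₀ ^ i * α₀)) = 0 => hΦα (by
            simpa [hζ₀.ne_zero (NeZero.ne M)] using e)
        have h3 := pow_gcd_eq_one.2 ⟨h1, h2⟩
        rw [Nat.gcd_comm, Nat.Coprime.gcd_eq_one
          (hq.coprime_iff_not_dvd.2 fun e => hqM (e.trans hsm)), pow_one] at h3
        exact (div_eq_one_iff_eq hne).1 h3
    | algebraMap x =>
      rw [IsScalarTower.algebraMap_apply H F, ← hΦ]
      exact hres _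
    | add r t _ _ e1 e2 => simp only [map_add, e1, e2]
    | inv r _ e1 => simp only [map_inv₀, e1]
    | mul r t _ _ e1 e2 => simp only [map_mul, e1, e2]
  have hN2 : (2 : ℝ) ≤ N := by exact_mod_cast hN
  have h1 := (abs_le.1 (hcount hRH Cq hconj N hN2)).2
  rw [countIn, Nat.floor_natCast] at h1
  refine le_trans (Nat.cast_le.2 (card_le_card (t := (primesLE K N).filter
    (· ∈ someFrobSet K _ Cq)) fun v hv => ?_)) ?_
  · rw [mem_filter] at hv ⊢
    obtain ⟨hv1, hv2, p, hp, hvp, hqp, hres⟩ := hv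
    refine ⟨hv1, ?_⟩
    obtain ⟨Q, hQ, hQv, τ, hτ⟩ := FA.Chebotarev.exists_isArithFrobAt
      (L := L) v
    refine ⟨Q, hQ, hQv, τ, ?_, hτ⟩
    haveI := hQ
    rw [hCq]
    refine ⟨hv2 _ (Ideal.IsMaximal.under _ Q) (by rw [Ideal.under_under, hQv]) _
      (isArithFrobAt_restrict hτ), fun y hy => ?_⟩
    exact frobenius_fixes hq hp hqp (hvp ▸ Ideal.absNorm_mem v.asIdeal) hres
      (hζ.pow (NeZero.pos _) rfl) hQv hτ
      (by rw [hQv, ← Submodule.cardQuot_apply, ← Ideal.absNorm_apply, hvp]) hy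
  have hdvd := natAbs_discr_mix_dvd (e := ε) rfl hζ hα htop
  obtain ⟨Lq, hLq⟩ : ∃ Lq : ℝ, Lq = Real.log q := ⟨_, rfl⟩
  have hLq0 : 0 ≤ Lq := hLq ▸ Real.log_natCast_nonneg q
  obtain ⟨n, hn⟩ : ∃ n, n = finrank K L := ⟨_, rfl⟩
  have hn1 : (1 : ℝ) ≤ n := hn ▸ Nat.one_le_cast.2 finrank_pos
  have hnK : (1 : ℝ) ≤ finrank ℚ K := Nat.one_le_cast.2 finrank_pos
  have hQ : finrank ℚ L = finrank ℚ K * n :=
    hn ▸ (finrank_mul_finrank ℚ K _).symm
  have hsize : fieldSize L ≤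
      n * (finrank ℚ K * (4 + 2 * Real.log M + dl) * (1 + Lq)) := by
    have hm : 0 < M * q := NeZero.pos _
    have hsq : (s * q) ≤ M * q := Nat.mul_le_mul_right q (Nat.le_of_dvd (NeZero.pos M) hsm)
    have hle := (Nat.le_of_dvd (Nat.mul_pos (Nat.mul_pos (pow_pos (NeZero.pos (s * q)) _)
      (pow_pos hm _)) (pow_pos (Int.natAbs_pos.2 (discr_ne_zero H)) _)) hdvd).trans
        (Nat.mul_le_mul_right _ (Nat.mul_le_mul_right _ (Nat.pow_le_pow_left hsq _)))
    have hlog := Real.log_le_log (Nat.cast_pos.2 (Int.natAbs_pos.2 (discr_ne_zero _)))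
      (Nat.cast_le (α := ℝ).2 hle)
    push_cast at hlog
    have hMq : (M : ℝ) * q ≠ 0 :=
      mul_ne_zero (Nat.cast_ne_zero.2 (NeZero.ne M)) (Nat.cast_ne_zero.2 hq.ne_zero)
    rw [Real.log_mul (mul_ne_zero (pow_ne_zero _ hMq) (pow_ne_zero _ hMq))
      (pow_ne_zero _ (Nat.cast_ne_zero.2 (Int.natAbs_ne_zero.2 (discr_ne_zero H)))),
      Real.log_mul (pow_ne_zero _ hMq) (pow_ne_zero _ hMq), Real.log_pow,
      Real.log_pow, Real.log_mul (Nat.cast_ne_zero.2 (NeZero.ne M))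
        (Nat.cast_ne_zero.2 hq.ne_zero), ← hdl, ← hLq, hQ] at hlog
    have hHL : (finrank H L : ℝ) ≤ n := by
      rw [hn, Nat.cast_le, ← finrank_mul_finrank K H L]
      exact Nat.le_mul_of_pos_left _ finrank_pos
    rw [fieldSize, hQ]
    push_cast at hlog ⊢
    have h5 := mul_le_mul_of_nonneg_right hHL hdl0
    have h6 : (n : ℝ) * dl ≤ finrank ℚ K * n * dl := by
      rw [mul_assoc]; exact le_mul_of_one_le_left (by positivity) hnK
    have h7 : 1 ≤ (finrank ℚ K : ℝ) * n := one_le_mul_of_one_le_of_one_le hnK hn1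
    have h8 : 0 ≤ (finrank ℚ K : ℝ) * n * Lq * (2 * Real.log M + dl + 2) := by positivity
    nlinarith
  have hsh : share Cq = (Nat.card Cq : ℝ) / n := by rw [share, IsGalois.card_aut_eq_finrank, hn]
  obtain ⟨R, hR⟩ : ∃ R, R = √(N : ℝ) * Real.log N ^ 4 := ⟨_, rfl⟩
  rw [← hR] at h1 ⊢
  rw [← hLq]
  have hR0 : 0 ≤ R := hR ▸ by positivity
  have hli : 0 ≤ logInt N := FA.ArtinHooley.logInt_nonneg hN2
  have hmain : share Cq * logInt N ≤ share C * logInt N * (1 / ((q : ℝ) * (q - 1))) := by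
    rw [mul_right_comm]
    refine mul_le_mul_of_nonneg_right ?_ hli
    rw [hsh, share, IsGalois.card_aut_eq_finrank, hn,
      ← finrank_mul_finrank K F, div_mul_div_comm, mul_one]
    have hq1 : (1 : ℝ) < q := Nat.one_lt_cast.2 hq.one_lt
    have hF0 : (0 : ℝ) < finrank K F := Nat.cast_pos.2 finrank_pos
    refine div_le_div₀ (Nat.cast_nonneg _) (Nat.cast_le.2 hcard)
      (mul_pos hF0 (mul_pos (by linarith) (by linarith))) ?_
    rw [Nat.cast_mul]
    refine mul_le_mul_of_nonneg_left ?_ (Nat.cast_nonneg _)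
    rw [← Nat.cast_one, ← Nat.cast_sub hq.one_le, ← Nat.cast_mul, Nat.cast_le]
    exact hFL
  have herr : A * share Cq * fieldSize L * R ≤
      A * (Nat.card C * (finrank ℚ K * (4 + 2 * Real.log M + dl))) * (1 + Lq) * R := by
    refine mul_le_mul_of_nonneg_right ?_ hR0
    rw [hsh, mul_assoc, mul_assoc]
    refine mul_le_mul_of_nonneg_left ?_ hA
    refine (mul_le_mul_of_nonneg_left hsize (by positivity)).trans ?_
    rw [show (Nat.card Cq : ℝ) / n * (n * (finrank ℚ K * (4 + 2 * Real.log M + dl) * (1 + Lq))) =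
      Nat.card Cq * (finrank ℚ K * (4 + 2 * Real.log M + dl) * (1 + Lq)) by field_simp,
      mul_assoc (Nat.card C : ℝ)]
    exact mul_le_mul_of_nonneg_right (Nat.cast_le.2 hcard) (by positivity)
  simp only [logInt] at hmain h1 ⊢
  linarith


end

/-- The primes of the class where `ε` is a `q`-th power residue. -/
theorem exists_count_residue_le (hGRH : ∀ (E : Type) [Field E] [NumberField E], FieldRH E)
    (hab : ∀ g h : H ≃ₐ[K] H, g * h = h * g) (ε : (𝓞 K)ˣ)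
    (hpow : ∀ q : ℕ, q.Prime → ∀ β : K, β ^ q ≠ ((ε : 𝓞 K) : K)) {M s : ℕ} [NeZero M]
    [NeZero s] (hs : Squarefree s) (hμ : ∀ q : ℕ, q.Prime → q ∣ s → ∀ x : K, x ^ q = 1 → x = 1)
    (hsm : s ∣ M) (hwM : Units.torsionOrder K ∣ M)
    (hH : ∀ p : ℕ, p.Prime → (p : ℤ) ∣ discr H → p ∣ M)
    {ζ₀ α₀ : MixH H ((ε : 𝓞 K) : K) M s} (hζ₀ : IsPrimitiveRoot ζ₀ M)
    (hα₀ : α₀ ^ s = algebraMap K _ ((ε : 𝓞 K) : K))
    (htop₀ : IntermediateField.adjoin H {ζ₀, α₀} = ⊤)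
    (C : Set (MixH H ((ε : 𝓞 K) : K) M s ≃ₐ[K] MixH H ((ε : 𝓞 K) : K) M s))
    (hC : ∀ g ∈ C, ∀ x, x * g * x⁻¹ ∈ C) :
    ∃ B : ℝ, 0 ≤ B ∧ ∀ q : ℕ, q.Prime → ¬ q ∣ M → ∀ N : ℕ, 2 ≤ N →
      ((((primesLE K N).filter fun v => v ∈ strictFrobSet K _ C ∧
        ∃ p : ℕ, p.Prime ∧ Ideal.absNorm v.asIdeal = p ∧ q ∣ p - 1 ∧
          (ε : 𝓞 K) ^ ((p - 1) / q) - 1 ∈ v.asIdeal).card : ℕ) : ℝ) ≤
        share C * logInt N * (1 / ((q : ℝ) * (q - 1))) +
          B * (1 + Real.log q) * (√N * Real.log N ^ 4) := by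
  obtain ⟨A, hA, hcount⟩ := FA.ChebGRH.exists_countF_le.{0, 0}
  refine ⟨A * (Nat.card C * (finrank ℚ K * (4 + 2 * Real.log M +
      Real.log (((discr H).natAbs : ℕ) : ℝ)))), ?_, fun q hq hqM N hN => ?_⟩
  · have := Real.log_natCast_nonneg M
    have := Real.log_natCast_nonneg (discr H).natAbs
    positivity
  have hμq : ∀ x : K, x ^ q = 1 → x = 1 := fun x =>
    eq_one_of_pow_prime hq fun h => hqM (h.trans hwM)
  haveI : NeZero q := ⟨hq.ne_zero⟩
  have hε0 : ((ε : 𝓞 K) : K) ≠ 0 := RingOfIntegers.coe_ne_zero_iff.2 (Units.ne_zero ε)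
  obtain ⟨ζ, α, hζ, hα, htop⟩ :=
    exists_mixH_gens (H := H) (m := M * q) (s := s * q)
      (L := MixH H ((ε : 𝓞 K) : K) (M * q) (s * q)) hε0 (mul_dvd_mul_right hsm q)
  obtain ⟨ι⟩ : Nonempty (MixH H ((ε : 𝓞 K) : K) M s →ₐ[H]
      MixH H ((ε : 𝓞 K) : K) (M * q) (s * q)) := ⟨IsSplittingField.lift _ _
        (splits_of_gens hsm hζ hα)⟩
  letI : Algebra (MixH H ((ε : 𝓞 K) : K) M s) (MixH H ((ε : 𝓞 K) : K) (M * q) (s * q)) :=
    ι.toRingHom.toAlgebra
  haveI : IsScalarTower H (MixH H ((ε : 𝓞 K) : K) M s)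
      (MixH H ((ε : 𝓞 K) : K) (M * q) (s * q)) :=
    IsScalarTower.of_algebraMap_eq fun x => (ι.commutes x).symm
  haveI : IsScalarTower K (MixH H ((ε : 𝓞 K) : K) M s)
      (MixH H ((ε : 𝓞 K) : K) (M * q) (s * q)) :=
    IsScalarTower.of_algebraMap_eq fun x => ((ι.restrictScalars K).commutes x).symm
  exact count_residue_le hA (hGRH _) (fun hRH D hD x hx => hcount hRH D hD x hx) hab ε hpow hs
    hμ hsm hH hζ₀ hα₀ htop₀ hC hq hμq hqM hζ hα htop hN

end FA.Weinberger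

end
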