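import Fermat.Agent.Weinberger.ClassField
import Fermat.Agent.Weinberger.Count
import Mathlib.NumberTheory.NumberField.ClassNumber

/-!
# Weinberger's theorem

On GRH every class modulo a prime of a principal number field with infinitely many units contains
a prime whose nonzero residues are units; so the ring of integers is Euclidean.
-/

set_option autoImplicit false
set_option linter.style.haveILetI false

noncomputable section

open NumberField IsDedekindDomain Module Polynomial Finset Filter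
open FA.ArtinHooley (FieldRH fieldSize logInt logInt_nonneg)
open FA.Hecke (primesLE mem_primesLE)
open FA.NaturalChebotarev (countIn someFrobSet finite_someFrobSet_diff)
open FA.Chebotarev (strictFrobSet)
open FA.ChebError (share share_nonneg)
open scoped Classical Topology

namespace FA.Weinberger

variable {K : Type} [Field K] [NumberField K]

variable [IsPrincipalIdealRing (𝓞 K)]

/-- The Frobenius class and the properties of its primes of degree one. -/
theorem exists_frobenius_class {π a : 𝓞 K} (hπ : Prime π) (ha : ¬ π ∣ a)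
    (ε : (𝓞 K)ˣ) (hpow : ∀ q : ℕ, q.Prime → ∀ β : K, β ^ q ≠ ((ε : 𝓞 K) : K))
    (hGRH : ∀ (E : Type) [Field E] [NumberField E], FieldRH E) :
    ∃ (M : ℕ) (F : Type) (_ : Field F) (_ : NumberField F) (_ : Algebra K F) (_ : IsGalois K F)
      (C : Set (F ≃ₐ[K] F)), M ≠ 0 ∧ Units.torsionOrder K ∣ M ∧
        (∀ g ∈ C, ∀ x, x * g * x⁻¹ ∈ C) ∧ 0 < share C ∧
      (∀ v ∈ strictFrobSet K F C, ∀ p : ℕ, p.Prime → Ideal.absNorm v.asIdeal = p → ¬ p ∣ M →
        (∀ q : ℕ, q.Prime → q ∣ Units.torsionOrder K →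
          ¬ q ^ ((Units.torsionOrder K).factorization q + 1) ∣ p - 1) ∧
          (∀ q : ℕ, q.Prime → ¬ q ∣ Units.torsionOrder K → q ∣ M → q ∣ p - 1 →
            (ε : 𝓞 K) ^ ((p - 1) / q) - 1 ∉ v.asIdeal) ∧
          ∃ r : 𝓞 K, v.asIdeal = Ideal.span {r} ∧ π ∣ a - r) ∧
      ∃ B : ℝ, 0 ≤ B ∧ ∀ q : ℕ, q.Prime → ¬ q ∣ M → ∀ N : ℕ, 2 ≤ N →
        ((((primesLE K N).filter fun v => v ∈ strictFrobSet K F C ∧
          ∃ p : ℕ, p.Prime ∧ Ideal.absNorm v.asIdeal = p ∧ q ∣ p - 1 ∧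
            (ε : 𝓞 K) ^ ((p - 1) / q) - 1 ∈ v.asIdeal).card : ℕ) : ℝ) ≤
          share C * logInt N * (1 / ((q : ℝ) * (q - 1))) +
            B * (1 + Real.log q) * (√N * Real.log N ^ 4) := by
  obtain ⟨H, _, _, _, _, hab, hin, sH, hcls⟩ := exists_classField_residue hπ ha
  obtain ⟨M, hM⟩ : ∃ M, M = Units.torsionOrder K * Units.torsionOrder K *
      ((discr H).natAbs * (Algebra.norm ℤ π).natAbs) := ⟨_, rfl⟩
  have hM0 : M ≠ 0 := hM ▸ Nat.mul_ne_zero
    (Nat.mul_ne_zero (Units.torsionOrder_ne_zero K) (Units.torsionOrder_ne_zero K))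
    (Nat.mul_ne_zero (Int.natAbs_ne_zero.2 (discr_ne_zero H))
      (Int.natAbs_ne_zero.2 (Algebra.norm_ne_zero_iff.2 hπ.ne_zero)))
  haveI : NeZero M := ⟨hM0⟩
  have hwM : Units.torsionOrder K ∣ M := hM ▸ (dvd_mul_right _ _).trans (dvd_mul_right _ _)
  have hnM : ∀ q : ℕ, q.Prime → q ∣ Units.torsionOrder K →
      q ^ ((Units.torsionOrder K).factorization q + 1) ∣ M := fun q _ hqw => hM ▸
    dvd_mul_of_dvd_left (pow_succ q _ ▸ mul_dvd_mul (Nat.ordProj_dvd _ q) hqw) _
  have hH : ∀ p : ℕ, p.Prime → (p : ℤ) ∣ discr H → p ∣ M := fun p _ h =>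
    hM ▸ dvd_mul_of_dvd_right (dvd_mul_of_dvd_left (Int.natCast_dvd.1 h) _) _
  obtain ⟨P, hP⟩ : ∃ P, P = M.primeFactors.filter (fun q => ¬ q ∣ Units.torsionOrder K) :=
    ⟨_, rfl⟩
  have hPp : ∀ q ∈ P, q.Prime := fun q hq =>
    Nat.prime_of_mem_primeFactors (mem_filter.1 (hP ▸ hq)).1
  obtain ⟨s, hs⟩ : ∃ s, s = ∏ q ∈ P, q := ⟨_, rfl⟩
  have hsq : Squarefree s := hs ▸ FA.ArtinHooley.squarefree_prod hPp
  haveI : NeZero s := ⟨hsq.ne_zero⟩
  have hsm : s ∣ M := hs ▸ Finset.prod_primes_dvd _ (fun q hq => Nat.prime_iff.1 (hPp q hq))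
    fun q hq => (Nat.mem_primeFactors.1 (mem_filter.1 (hP ▸ hq)).1).2.1
  have hμ : ∀ q : ℕ, q.Prime → q ∣ s → ∀ x : K, x ^ q = 1 → x = 1 := fun q hq hqs => by
    rw [hs, (Nat.prime_iff.1 hq).dvd_finsetProd_iff] at hqs
    obtain ⟨r, hr, hqr⟩ := hqs
    obtain rfl := (Nat.prime_dvd_prime_iff_eq hq (hPp r hr)).1 hqr
    rw [hP] at hr
    exact fun x => eq_one_of_pow_prime hq (mem_filter.1 hr).2
  have hqs : ∀ q : ℕ, q.Prime → ¬ q ∣ Units.torsionOrder K → q ∣ M → q ∣ s := fun q hq hqw hqM =>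
    hs ▸ Finset.dvd_prod_of_mem _
      (hP ▸ mem_filter.2 ⟨Nat.mem_primeFactors.2 ⟨hq, hqM, hM0⟩, hqw⟩)
  have hε0 : ((ε : 𝓞 K) : K) ≠ 0 := RingOfIntegers.coe_ne_zero_iff.2 (Units.ne_zero ε)
  obtain ⟨ζ, α, hζ, hα, htop⟩ :=
    exists_mixH_gens (H := H) (L := MixH H ((ε : 𝓞 K) : K) M s) hε0 hsm
  obtain ⟨σ, hσH, hσw, hσα⟩ :=
    exists_aut hab hin hε0 hpow hsq hμ hsm hζ hα htop hnM sH
  have hCne : (conjClass σ).Nonempty := ⟨σ, 1, by group⟩
  have hshare : 0 < share (conjClass σ) := by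
    rw [share]
    haveI : Nonempty (conjClass σ) := hCne.to_subtype
    exact div_pos (Nat.cast_pos.2 Nat.card_pos) (Nat.cast_pos.2 Nat.card_pos)
  obtain ⟨B, hB, hcount⟩ := exists_count_residue_le hGRH hab ε hpow hsq hμ hsm hwM hH hζ hα htop
    (conjClass σ) (conjClass_conj σ)
  refine ⟨M, MixH H ((ε : 𝓞 K) : K) M s, inferInstance, inferInstance, inferInstance,
    inferInstance, conjClass σ, hM0, hwM, conjClass_conj σ, hshare, fun v hv p hp hvp hpM => ?_,
    B, hB, hcount⟩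
  obtain ⟨Q, hQ, hQv, τ, hτ⟩ :=
    FA.Chebotarev.exists_isArithFrobAt (L := MixH H ((ε : 𝓞 K) : K) M s) v
  haveI := hQ
  obtain ⟨x, hx⟩ := hv Q hQ hQv τ hτ
  have hσ : ∀ y, τ (x y) = x y → σ y = y := fun y hy => by
    rw [hx, AlgEquiv.mul_apply, AlgEquiv.mul_apply, ← AlgEquiv.mul_apply x⁻¹, inv_mul_cancel,
      AlgEquiv.one_apply] at hy
    exact x.injective hy
  have hcard : Nat.card (𝓞 K ⧸ Q.under (𝓞 K)) = p := by
    rw [hQv, ← Submodule.cardQuot_apply, ← Ideal.absNorm_apply, hvp]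
  have hpv : (p : 𝓞 K) ∈ v.asIdeal := hvp ▸ Ideal.absNorm_mem v.asIdeal
  refine ⟨fun q hq hqw hdiv => ?_, fun q hq hqw hqM hqp hmem => ?_, ?_⟩
  · obtain ⟨n, hn⟩ : ∃ n, n = q ^ ((Units.torsionOrder K).factorization q + 1) := ⟨_, rfl⟩
    rw [← hn] at hdiv
    have hnM' : n ∣ M := hn ▸ hnM q hq hqw
    have hn0 : n ≠ 0 := hn ▸ pow_ne_zero _ hq.ne_zero
    refine hσw q hq hqw (hσ _ ?_)
    rw [← hn]
    obtain ⟨y, hy⟩ : ∃ y, y = x (ζ ^ (M / n)) := ⟨_, rfl⟩
    have hyn : y ^ n = 1 := by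
      rw [hy, ← map_pow, ← pow_mul, Nat.div_mul_cancel hnM', hζ.pow_eq_one, map_one]
    rw [← hy]
    obtain ⟨z, hz⟩ : ∃ z : 𝓞 (MixH H ((ε : 𝓞 K) : K) M s),
        (z : MixH H ((ε : 𝓞 K) : K) M s) = y :=
      ⟨⟨y, IsIntegral.of_pow (Nat.pos_of_ne_zero hn0) (hyn ▸ isIntegral_one)⟩, rfl⟩
    have hzn : z ^ n = 1 := RingOfIntegers.ext
      ((map_pow (algebraMap _ (MixH H ((ε : 𝓞 K) : K) M s)) z n).trans
        ((congrArg (· ^ n) hz).trans (hyn.trans (map_one _).symm)))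
    have hnQ : ((n : ℕ) : 𝓞 (MixH H ((ε : 𝓞 K) : K) M s)) ∉ Q := fun hmem => hQ.ne_top (by
      obtain ⟨u, t, hut⟩ := (hp.coprime_iff_not_dvd.2 fun e => hpM (e.trans hnM')).cast
        (R := 𝓞 (MixH H ((ε : 𝓞 K) : K) M s))
      rw [← hQv, Ideal.mem_comap, map_natCast] at hpv
      rw [Ideal.eq_top_iff_one, ← hut]
      exact Q.add_mem (Q.mul_mem_left _ hpv) (Q.mul_mem_left _ hmem))
    haveI := hQ.isPrime
    have h1 : τ • z = z ^ Nat.card (𝓞 K ⧸ Q.under (𝓞 K)) := hτ.apply_of_pow_eq_one hzn hnQ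
    obtain ⟨k, hk⟩ := hdiv
    rw [hcard, ← Nat.sub_add_cancel hp.one_le, pow_add, hk, pow_mul, hzn, one_pow, one_mul,
      pow_one] at h1
    have h5 := congrArg (algebraMap _ (MixH H ((ε : 𝓞 K) : K) M s)) h1
    exact (congrArg τ hz).symm.trans (h5.trans hz)
  · obtain ⟨d, hd⟩ := hqs q hq hqw hqM
    obtain ⟨c, hc⟩ := hsm
    haveI : NeZero q := ⟨hq.ne_zero⟩
    have hroot : (α ^ d) ^ q = algebraMap K _ ((ε : 𝓞 K) : K) := by
      rw [← pow_mul, mul_comm d q, ← hd, hα]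
    have hfix : σ (α ^ d) = α ^ d := hσ _ (frobenius_fixes hq hp hqp hpv hmem
      (hζ.pow (NeZero.pos M) (show M = (d * c) * q by rw [hc, hd]; ring)) hQv hτ hcard
      (Or.inr (by rw [← map_pow, hroot, AlgEquiv.commutes])))
    rw [map_pow, hσα, mul_pow, ← pow_mul, mul_eq_right₀ (fun e => hε0 ((map_eq_zero
      (algebraMap K (MixH H ((ε : 𝓞 K) : K) M s))).1 (by rw [← hroot, e, zero_pow hq.ne_zero]))),
      hζ.pow_eq_one_iff_dvd] at hfix
    have hdiv : M / s * d = c * d := by rw [hc, Nat.mul_div_cancel_left _ (NeZero.pos s)]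
    rw [hdiv] at hfix
    have h1 : 0 < c * d := Nat.pos_of_ne_zero fun e => hM0 (by
      rw [hc, hd, mul_assoc, mul_comm d c, e, mul_zero])
    have h2' := Nat.le_of_dvd h1 hfix
    rw [hc, hd, mul_assoc, mul_comm d c] at h2'
    exact (lt_mul_left h1 hq.one_lt).not_ge h2'
  · haveI : Normal K H := inferInstance
    have hτH : τ.restrictNormal H = sH := by
      show AlgEquiv.restrictNormalHom H τ = sH
      rw [hx, map_mul, map_mul, map_inv,
        show AlgEquiv.restrictNormalHom H σ = sH from hσH, hab _ sH, mul_assoc, mul_inv_cancel,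
        mul_one]
    haveI hPm : (Q.under (𝓞 H)).IsMaximal := Ideal.IsMaximal.under _ Q
    refine hcls v ⟨Q.under (𝓞 H), hPm.isPrime,
      Ring.ne_bot_of_isMaximal_of_not_isField hPm (RingOfIntegers.not_isField _)⟩ (fun hπv => ?_)
      (by rw [Ideal.under_under, hQv]) (hτH ▸ isArithFrobAt_restrict hτ)
    have h := Ideal.absNorm_dvd_absNorm_of_le ((Ideal.span_singleton_le_iff_mem _).2 hπv)
    rw [Ideal.absNorm_span_singleton, hvp] at h
    exact hpM (hM ▸ dvd_mul_of_dvd_right (dvd_mul_of_dvd_right h _) _)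

/-- **A good prime in every class modulo a prime.** -/
theorem exists_goodPrime_congr (hGRH : ∀ (E : Type) [Field E] [NumberField E], FieldRH E)
    (hrank : 0 < Units.rank K) {π a : 𝓞 K} (hπ : Prime π) (ha : ¬ π ∣ a) :
    ∃ r : 𝓞 K, π ∣ a - r ∧ GoodPrime r := by
  obtain ⟨ε, hinf, hpow⟩ := exists_unit_not_pow hrank
  obtain ⟨M, F, _, _, _, _, C, hM0, hwM, hC, hw0, hprops, B, hB, hres⟩ :=
    exists_frobenius_class hπ ha ε hpow hGRH
  by_contra hno
  obtain ⟨A, hA, hcount⟩ := FA.ChebGRH.exists_countF_le.{0, 0}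
  have hfin := finite_someFrobSet_diff C hC
  obtain ⟨c3, hc3, hsmall⟩ := exists_card_smallOrder_le (ε : 𝓞 K) hinf
  obtain ⟨n, hn⟩ : ∃ n : ℝ, n = (finrank ℚ K : ℝ) := ⟨_, rfl⟩
  have hn0 : 0 ≤ n := hn ▸ Nat.cast_nonneg _
  obtain ⟨E0, hE0⟩ : ∃ E0 : ℝ, E0 = A * share C * fieldSize F + hfin.toFinset.card +
      n * (M.primeFactors.card + 1) := ⟨_, rfl⟩
  have hE00 : 0 ≤ E0 := by
    have := share_nonneg C
    have : 0 ≤ fieldSize F :=
      zero_le_one.trans (FA.ArtinHooley.one_le_fieldSize (K := F)).1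
    rw [hE0]; positivity
  obtain ⟨D, hD⟩ : ∃ D : ℝ, D = E0 + 2 * B + n * 8100 + c3 := ⟨_, rfl⟩
  have hkey : ∀ N : ℕ, 64 ≤ Real.log N → Real.log (Real.log N) ≤ Real.log N / 64 →
      share C / 2 * (logInt N * Real.log N / N) ≤
        D * ((Real.log (Real.log N) + 1) / Real.log N) := fun N hL hlL => by
    obtain ⟨L, hLdef⟩ : ∃ L, L = Real.log N := ⟨_, rfl⟩
    obtain ⟨w, hw⟩ : ∃ w, w = Real.log L := ⟨_, rfl⟩
    rw [← hLdef, ← hw] at hlL ⊢
    rw [← hLdef] at hL
    have hN : 2 ≤ N := by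
      by_contra h
      interval_cases N <;> norm_num at hLdef <;> linarith
    have hN0 : (0 : ℝ) < N := Nat.cast_pos.2 (by omega)
    have hL0 : 0 < L := by linarith
    have hw0' : 0 ≤ w := hw ▸ Real.log_nonneg (by linarith)
    have hl2 : Real.log 2 ≤ 1 := by linarith [Real.log_two_lt_d9]
    obtain ⟨s, hs⟩ : ∃ s, s = √(N : ℝ) := ⟨_, rfl⟩
    have hs0 : 0 < s := hs ▸ Real.sqrt_pos.2 hN0
    have hss : s * s = N := hs ▸ Real.mul_self_sqrt hN0.le
    have hls : Real.log s = L / 2 := by rw [hs, Real.log_sqrt hN0.le, hLdef]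
    obtain ⟨u, hu⟩ : ∃ u, u = ⌊s / L ^ 8⌋₊ := ⟨_, rfl⟩
    obtain ⟨v, hv⟩ : ∃ v, v = ⌈s * L⌉₊ := ⟨_, rfl⟩
    obtain ⟨y, hy⟩ : ∃ y, y = ⌊s / L⌋₊ := ⟨_, rfl⟩
    have h4 : 4 ≤ s / L ^ 8 := by
      rw [le_div_iff₀ (by positivity), ← Real.log_le_log_iff (by positivity) hs0, hls,
        Real.log_mul (by norm_num) (by positivity), Real.log_pow, ← hw,
        show (4 : ℝ) = 2 ^ 2 by norm_num, Real.log_pow]
      push_cast
      linarith
    have hu2 : s / L ^ 8 / 2 ≤ u := by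
      have h1 := Nat.lt_floor_add_one (s / L ^ 8)
      rw [← hu] at h1
      linarith
    have hu2' : 2 ≤ u := hu ▸ Nat.le_floor (by push_cast; linarith)
    have hus : (u : ℝ) ≤ s / L ^ 8 := hu ▸ Nat.floor_le (by positivity)
    have hv1 : s * L ≤ v := hv ▸ Nat.le_ceil _
    have hsL1 : 1 ≤ s * L := by
      have h8 : (1 : ℝ) ≤ L ^ 8 := one_le_pow₀ (by linarith)
      rw [le_div_iff₀ (by positivity)] at h4
      nlinarith
    have hv2 : (v : ℝ) ≤ 2 * (s * L) := by
      have := Nat.ceil_lt_add_one (show 0 ≤ s * L by positivity)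
      rw [← hv] at this
      linarith
    have hs1 : 1 ≤ s := hs ▸ Real.one_le_sqrt.2 (Nat.one_le_cast.2 (by omega))
    have hsN : s ≤ N := hss ▸ le_mul_of_one_le_left hs0.le hs1
    have huv : u ≤ v := by
      have : (u : ℝ) ≤ v := (hus.trans (div_le_self hs0.le (one_le_pow₀ (by linarith)))).trans
        ((le_mul_of_one_le_right hs0.le (by linarith)).trans hv1)
      exact_mod_cast this
    have hlu : L / 4 ≤ Real.log u := by
      refine le_trans ?_ (Real.log_le_log (by positivity) hu2)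
      rw [Real.log_div (by positivity) two_ne_zero, Real.log_div hs0.ne' (by positivity),
        Real.log_pow, hls, ← hw]
      push_cast
      linarith
    have hlv : Real.log v ≤ L / 2 + w + 1 := by
      refine (Real.log_le_log (by linarith) hv2).trans ?_
      rw [Real.log_mul two_ne_zero (by positivity), Real.log_mul hs0.ne' hL0.ne', hls, ← hw]
      linarith
    have hlvu : Real.log v - Real.log u ≤ 9 * w + 2 := by
      have : L / 2 - 8 * w - 1 ≤ Real.log u := by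
        refine le_trans ?_ (Real.log_le_log (by positivity) hu2)
        rw [Real.log_div (by positivity) two_ne_zero, Real.log_div hs0.ne' (by positivity),
          Real.log_pow, hls, ← hw]
        push_cast
        linarith
      linarith
    -- the sets
    obtain ⟨T, hT⟩ : ∃ T, T = (primesLE K N).filter (· ∈ strictFrobSet K F C) := ⟨_, rfl⟩
    obtain ⟨T0, hT0⟩ : ∃ T0, T0 = T.filter fun t => ∃ p ∈ Icc 1 (Nat.sqrt N) ∪ M.primeFactors,
        p.Prime ∧ (p : 𝓞 K) ∈ t.asIdeal := ⟨_, rfl⟩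
    obtain ⟨Q1, hQ1⟩ : ∃ Q1, Q1 = ((Ioc 2 u).filter Nat.Prime).filter fun q => ¬ q ∣ M :=
      ⟨_, rfl⟩
    obtain ⟨T1, hT1⟩ : ∃ T1, T1 = Q1.biUnion fun q => (primesLE K N).filter fun t =>
        t ∈ strictFrobSet K F C ∧ ∃ p : ℕ, p.Prime ∧ Ideal.absNorm t.asIdeal = p ∧ q ∣ p - 1 ∧
          (ε : 𝓞 K) ^ ((p - 1) / q) - 1 ∈ t.asIdeal := ⟨_, rfl⟩
    obtain ⟨P2, hP2⟩ : ∃ P2, P2 = ((Ioc u v).filter Nat.Prime).biUnion fun q =>
        (Icc 1 N).filter fun p => p.Prime ∧ p ≡ 1 [MOD q] := ⟨_, rfl⟩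
    obtain ⟨T2, hT2⟩ : ∃ T2, T2 = T.filter fun t => Ideal.absNorm t.asIdeal ∈ P2 := ⟨_, rfl⟩
    obtain ⟨T3, hT3⟩ : ∃ T3, T3 = T.filter fun t => (Ideal.absNorm t.asIdeal).Prime ∧
        ∃ j ∈ Icc 1 y, (ε : 𝓞 K) ^ j - 1 ∈ t.asIdeal := ⟨_, rfl⟩
    have hcover : T ⊆ T0 ∪ T1 ∪ T2 ∪ T3 := fun t ht => by
      have htT := ht
      rw [hT, mem_filter, mem_primesLE] at ht
      obtain ⟨p, f, hp, hf, hpf, hpt⟩ := FA.ArtinHooley.exists_norm_eq_pow t
      have h0 : p ∈ Icc 1 (Nat.sqrt N) ∪ M.primeFactors → t ∈ T0 := fun h =>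
        hT0 ▸ mem_filter.2 ⟨htT, p, h, hp, hpt⟩
      simp only [mem_union]
      rcases (show f = 1 ∨ 2 ≤ f by omega) with rfl | hf2
      swap
      · refine Or.inl (Or.inl (Or.inl (h0 (mem_union_left _ (mem_Icc.2 ⟨hp.one_le, ?_⟩)))))
        exact Nat.le_sqrt'.2 ((Nat.pow_le_pow_right hp.pos hf2).trans (hpf ▸ ht.1))
      rw [pow_one] at hpf
      by_cases hpM : p ∣ M
      · exact Or.inl (Or.inl (Or.inl (h0 (mem_union_right _
          (Nat.mem_primeFactors.2 ⟨hp, hpM, hM0⟩)))))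
      obtain ⟨hwq, hsmallq, r, hr, hra⟩ := hprops t ht.2 p hp hpf hpM
      have hbad : ¬ ∀ q : ℕ, q.Prime → ¬ q ∣ Units.torsionOrder K → q ∣ p - 1 →
          ¬ r ∣ (ε : 𝓞 K) ^ ((p - 1) / q) - 1 := fun h =>
        hno ⟨r, hra, goodPrime_of_conditions hp (hr ▸ hpf) (fun e => hpM (e.trans hwM)) hwq ε h⟩
      push Not at hbad
      obtain ⟨q, hq, hqw, hqp, hdvd⟩ := hbad
      have hmem : (ε : 𝓞 K) ^ ((p - 1) / q) - 1 ∈ t.asIdeal :=
        hr ▸ Ideal.mem_span_singleton.2 hdvd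
      have hqM : ¬ q ∣ M := fun h => hsmallq q hq hqw h hqp hmem
      have hq2 : q ≠ 2 := fun e => hqw (e ▸ (Units.even_torsionOrder K).two_dvd)
      have hp1 : 0 < p - 1 := by have := hp.two_le; omega
      have hq3 : 2 < q := by have := hq.two_le; omega
      have hpN : p ≤ N := hpf ▸ ht.1
      rcases le_or_gt q u with hqu | hqu
      · refine Or.inl (Or.inl (Or.inr ?_))
        rw [hT1, mem_biUnion]
        exact ⟨q, hQ1 ▸ mem_filter.2 ⟨mem_filter.2 ⟨mem_Ioc.2 ⟨hq3, hqu⟩, hq⟩, hqM⟩,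
          mem_filter.2 ⟨mem_primesLE.2 ht.1, ht.2, p, hp, hpf, hqp, hmem⟩⟩
      rcases le_or_gt q v with hqv | hqv
      · refine Or.inl (Or.inr ?_)
        rw [hT2, mem_filter, hpf, hP2, mem_biUnion]
        exact ⟨htT, q, mem_filter.2 ⟨mem_Ioc.2 ⟨hqu, hqv⟩, hq⟩, mem_filter.2
          ⟨mem_Icc.2 ⟨hp.one_le, hpN⟩, hp, ((Nat.modEq_iff_dvd' hp.one_le).2 hqp).symm⟩⟩
      refine Or.inr ?_
      rw [hT3, mem_filter, hpf]
      refine ⟨htT, hp, (p - 1) / q, mem_Icc.2 ⟨Nat.div_pos (Nat.le_of_dvd hp1 hqp) hq.pos, ?_⟩,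
        hmem⟩
      rw [hy]
      refine Nat.le_floor (Nat.cast_div_le.trans ?_)
      refine (div_le_div₀ hN0.le (Nat.cast_le.2 ((Nat.sub_le p 1).trans hpN)) (by positivity)
        (hv1.trans (Nat.cast_le.2 hqv.le))).trans (le_of_eq ?_)
      rw [← hss]
      field_simp
    -- their sizes
    obtain ⟨R, hR⟩ : ∃ R, R = s * L ^ 4 := ⟨_, rfl⟩
    have hR1 : 1 ≤ R := hR ▸ one_le_mul_of_one_le_of_one_le hs1 (one_le_pow₀ (by linarith))
    have hRN : R ≤ N / L ^ 2 := by
      rw [hR, le_div_iff₀ (by positivity)]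
      rw [le_div_iff₀ (by positivity)] at h4
      calc s * L ^ 4 * L ^ 2 = s * (L ^ 6 * 1) := by ring
        _ ≤ s * (L ^ 6 * L ^ 2) := by
            refine mul_le_mul_of_nonneg_left (mul_le_mul_of_nonneg_left ?_ (by positivity)) hs0.le
            exact one_le_pow₀ (by linarith)
        _ ≤ s * s := mul_le_mul_of_nonneg_left (by
            rw [← pow_add]; norm_num; linarith [pow_pos hL0 8]) hs0.le
        _ = N := hss
    have hN2 : (2 : ℝ) ≤ N := by exact_mod_cast hN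
    have hli : 0 ≤ logInt N := logInt_nonneg hN2
    have hlow : share C * logInt N - A * share C * fieldSize F * R - hfin.toFinset.card ≤
        (T.card : ℝ) := by
      have h1 := (abs_le.1 (hcount (hGRH F) C hC N hN2)).1
      rw [countIn, Nat.floor_natCast, ← hs, ← hLdef, ← hR] at h1
      have h2 : ((primesLE K N).filter (· ∈ someFrobSet K F C)).card ≤
          T.card + hfin.toFinset.card := by
        refine (card_le_card fun t ht => ?_).trans (card_union_le _ _)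
        rw [mem_filter] at ht
        by_cases h : t ∈ strictFrobSet K F C
        · exact mem_union_left _ (hT ▸ mem_filter.2 ⟨ht.1, h⟩)
        · exact mem_union_right _ (hfin.mem_toFinset.2 ⟨ht.2, h⟩)
      have h3 := (Nat.cast_le (α := ℝ)).2 h2
      push_cast at h3
      simp only [logInt]
      linarith
    have b0 : (T0.card : ℝ) ≤ n * (M.primeFactors.card + 1) * R := by
      have h1 := card_le_of_over T0 (Icc 1 (Nat.sqrt N) ∪ M.primeFactors) fun t ht => by
        rw [hT0, mem_filter] at ht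
        exact ht.2
      have h2 : (((Icc 1 (Nat.sqrt N) ∪ M.primeFactors).card : ℕ) : ℝ) ≤
          s + M.primeFactors.card := by
        refine (Nat.cast_le.2 (card_union_le _ _)).trans ?_
        rw [Nat.card_Icc, Nat.add_sub_cancel, Nat.cast_add]
        have := hs ▸ (Real.nat_sqrt_le_real_sqrt (a := N))
        linarith
      refine (Nat.cast_le.2 h1).trans ?_
      rw [Nat.cast_mul, ← hn, mul_assoc]
      refine mul_le_mul_of_nonneg_left (h2.trans ?_) hn0
      have hsR : s ≤ R := hR ▸ le_mul_of_one_le_right hs0.le (one_le_pow₀ (by linarith))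
      nlinarith [Nat.cast_nonneg (α := ℝ) M.primeFactors.card]
    have b1 : (T1.card : ℝ) ≤ share C * logInt N / 2 + 2 * B * (N / L ^ 2) := by
      rw [hT1]
      refine (Nat.cast_le.2 card_biUnion_le).trans ?_
      rw [Nat.cast_sum]
      refine (sum_le_sum fun q hq => ?_).trans ((sum_add_distrib
        (f := fun q : ℕ => share C * logInt N * (1 / ((q : ℝ) * (q - 1))))
        (g := fun _ => B * (2 * L) * R)).le.trans (add_le_add ?_ ?_))
      · rw [hQ1, mem_filter, mem_filter, mem_Ioc] at hq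
        refine (hres q hq.1.2 hq.2 N hN).trans (add_le_add le_rfl ?_)
        rw [← hs, ← hLdef, ← hR]
        have hlq : Real.log q ≤ L := hLdef ▸ Real.log_le_log (by exact_mod_cast hq.1.2.pos)
          (((Nat.cast_le.2 hq.1.1.2).trans hus).trans
            ((div_le_self hs0.le (one_le_pow₀ (by linarith))).trans hsN))
        exact mul_le_mul_of_nonneg_right (mul_le_mul_of_nonneg_left (by linarith) hB)
          (by linarith)
      · rw [← mul_sum]
        have h1 : ∑ q ∈ Q1, 1 / ((q : ℝ) * (q - 1)) ≤ 1 / 2 := by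
          refine le_trans (sum_le_sum_of_subset_of_nonneg (hQ1 ▸ filter_subset _ _)
            fun q hq _ => ?_) (by simpa using FA.ArtinHooley.sum_inv_mul_pred_le one_le_two u)
          have : (1 : ℝ) ≤ q := Nat.one_le_cast.2 (mem_filter.1 hq).2.one_le
          exact one_div_nonneg.2 (mul_nonneg (by linarith) (by linarith))
        rw [div_eq_mul_one_div (share C * logInt N) 2]
        exact mul_le_mul_of_nonneg_left h1 (mul_nonneg hw0.le hli)
      · rw [sum_const, nsmul_eq_mul]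
        have hQc : (Q1.card : ℝ) ≤ s / L ^ 8 := by
          refine le_trans (Nat.cast_le.2 ?_) hus
          rw [hQ1]
          refine (card_filter_le _ _).trans ((card_filter_le _ _).trans ?_)
          rw [Nat.card_Ioc]
          omega
        refine (mul_le_mul_of_nonneg_right hQc (by positivity)).trans ?_
        rw [hR, show s / L ^ 8 * (B * (2 * L) * (s * L ^ 4)) = 2 * B * (s * s / L ^ 2) / L by
          field_simp, hss]
        exact div_le_self (by positivity) (by linarith)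
    have b2 : (T2.card : ℝ) ≤ n * 8100 * ((N : ℝ) / L ^ 2 * (w + 1)) := by
      have h1 := card_le_of_over T2 P2 fun t ht => by
        rw [hT2, mem_filter] at ht
        refine ⟨_, ht.2, ?_, Ideal.absNorm_mem t.asIdeal⟩
        rw [hP2, mem_biUnion] at ht
        obtain ⟨-, q, -, hp⟩ := ht
        exact (mem_filter.1 hp).2.1
      have h2 : (P2.card : ℝ) ≤ 8100 * ((N : ℝ) / L ^ 2 * (w + 1)) := by
        rw [hP2]
        refine (FA.ArtinHooley.card_middle_le hu2' huv hN (by rw [← hLdef]; linarith)).trans ?_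
        rw [← hLdef]
        refine (mul_le_mul_of_nonneg_left (div_le_div₀ (by linarith)
          (show Real.log v - Real.log u + 12 ≤ 14 * (w + 1) by linarith) (by positivity) hlu)
          (by positivity)).trans ?_
        rw [show 144 * (N : ℝ) / L * (14 * (w + 1) / (L / 4)) = 8064 * (N / L ^ 2 * (w + 1)) by
          field_simp; ring]
        exact mul_le_mul_of_nonneg_right (by norm_num) (by positivity)
      refine (Nat.cast_le.2 h1).trans ?_
      rw [Nat.cast_mul, ← hn, mul_assoc]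
      exact mul_le_mul_of_nonneg_left h2 hn0
    have b3 : (T3.card : ℝ) ≤ c3 * ((N : ℝ) / L ^ 2) := by
      refine (hsmall y T3 fun t ht => by
        rw [hT3, mem_filter] at ht
        exact ht.2).trans (mul_le_mul_of_nonneg_left ?_ hc3)
      rw [show (N : ℝ) / L ^ 2 = (s / L) ^ 2 by rw [div_pow, sq s, hss]]
      exact pow_le_pow_left₀ (Nat.cast_nonneg y) (hy ▸ Nat.floor_le (by positivity)) 2
    have hsum := (Nat.cast_le (α := ℝ)).2 ((card_le_card hcover).trans ((card_union_le _ _).trans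
      (Nat.add_le_add_right ((card_union_le _ _).trans
        (Nat.add_le_add_right (card_union_le _ _) _)) _)))
    push_cast at hsum
    obtain ⟨X, hX⟩ : ∃ X, X = (N : ℝ) / L ^ 2 * (w + 1) := ⟨_, rfl⟩
    have hX1 : (N : ℝ) / L ^ 2 ≤ X := hX ▸ le_mul_of_one_le_right (by positivity) (by linarith)
    rw [← hX] at b2
    have hRX : R ≤ X := hRN.trans hX1
    have hcard : (hfin.toFinset.card : ℝ) ≤ hfin.toFinset.card * R :=
      le_mul_of_one_le_right (Nat.cast_nonneg _) hR1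
    have hEX : E0 * R ≤ E0 * X := mul_le_mul_of_nonneg_left hRX hE00
    have hBX : 2 * B * ((N : ℝ) / L ^ 2) ≤ 2 * B * X :=
      mul_le_mul_of_nonneg_left hX1 (by linarith)
    have hcX : c3 * ((N : ℝ) / L ^ 2) ≤ c3 * X := mul_le_mul_of_nonneg_left hX1 hc3
    have htot : share C * logInt N / 2 ≤ D * X := by
      rw [hE0] at hEX
      rw [hD, hE0]
      linarith
    calc share C / 2 * (logInt N * L / N) = share C * logInt N / 2 * (L / N) := by ring
      _ ≤ D * X * (L / N) := mul_le_mul_of_nonneg_right htot (by positivity)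
      _ = D * ((w + 1) / L) := by rw [hX]; field_simp
  have hlog : Tendsto (fun N : ℕ => Real.log N) atTop atTop :=
    Real.tendsto_log_atTop.comp tendsto_natCast_atTop_atTop
  have h1 : Tendsto (fun x : ℝ => (Real.log x + 1) / x) atTop (𝓝 0) := by
    simpa [add_div] using Real.isLittleO_log_id_atTop.tendsto_div_nhds_zero.add
      (tendsto_inv_atTop_zero (𝕜 := ℝ))
  have hlim := le_of_tendsto_of_tendsto
    ((FA.ArtinHooley.tendsto_logInt.comp tendsto_natCast_atTop_atTop).const_mul (share C / 2))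
    ((h1.comp hlog).const_mul D) ?_
  · linarith
  filter_upwards [hlog.eventually_ge_atTop 64,
    hlog.eventually (Real.isLittleO_log_id_atTop.def (show (0 : ℝ) < 1 / 64 by norm_num))]
    with N h2 h3
  rw [id_eq, Real.norm_of_nonneg (Real.log_nonneg (by linarith)),
    Real.norm_of_nonneg (by linarith)] at h3
  exact hkey N h2 (by linarith)

/-- **Weinberger's theorem.** -/
theorem exists_euclidean (hGRH : ∀ (E : Type) [Field E] [NumberField E], FieldRH E)
    (hrank : 0 < Units.rank K) :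
    ∃ g : 𝓞 K → ℕ, ∀ a b : 𝓞 K, b ≠ 0 → ∃ q r, a = b * q + r ∧ g r < g b :=
  exists_algorithm (fun π hπ a ha => by
      obtain ⟨r, hr, hg⟩ := exists_goodPrime_congr hGRH hrank hπ ha
      exact ⟨r, hr, Or.inr hg⟩)
    fun a b hb hab => exists_prime_congr hb hab

end FA.Weinberger

end
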