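import Mathlib.NumberTheory.NumberField.Units.DirichletTheorem
import Mathlib.NumberTheory.NumberField.InfinitePlace.TotallyRealComplex
import Mathlib.FieldTheory.KummerExtension
import Mathlib.RingTheory.Polynomial.Cyclotomic.Roots

/-!
# Roots of unity and a unit that gains no roots in abelian extensions

A number field with infinitely many units has a unit of infinite order that is no prime power. If
`K` has no nontrivial `q`-th root of unity it has no `q`-th root in an abelian extension either.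
-/

set_option autoImplicit false
set_option linter.style.haveILetI false

noncomputable section

open NumberField Polynomial
open scoped Classical

namespace FA.Weinberger

variable {K : Type*} [Field K] [NumberField K]

/-- There is a unit of infinite order that is no prime power. -/
theorem exists_unit_not_pow (hrank : 0 < Units.rank K) :
    ∃ ε : (𝓞 K)ˣ, (∀ j : ℕ, 1 ≤ j → (ε : 𝓞 K) ^ j ≠ 1) ∧
      ∀ q : ℕ, q.Prime → ∀ β : K, β ^ q ≠ ((ε : 𝓞 K) : K) := by
  obtain ⟨i, -⟩ : ∃ i : Fin (Units.rank K), i = ⟨0, hrank⟩ := ⟨_, rfl⟩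
  refine ⟨Units.fundSystem K i, fun j hj h => ?_, fun q hq β hβ => ?_⟩
  · have h' : Units.fundSystem K i ^ j = 1 :=
      Units.ext (by rw [Units.val_pow_eq_pow_val, h, Units.val_one])
    have huniq := (Units.exist_unique_eq_mul_prod K 1).unique
      (y₁ := (1, 0)) (y₂ := (1, Pi.single i (j : ℤ))) (by simp) ?_
    · have h1 := congrFun (congrArg Prod.snd huniq) i
      simp only [Pi.single_eq_same, Pi.zero_apply] at h1
      omega
    · rw [OneMemClass.coe_one, one_mul, Finset.prod_eq_single i]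
      · simp [h']
      · intro k _ hk
        simp [Pi.single_eq_of_ne hk]
      · simp
  have hint : IsIntegral ℤ β := IsIntegral.of_pow hq.pos (hβ ▸ RingOfIntegers.isIntegral_coe _)
  obtain ⟨b, hb⟩ : ∃ b : 𝓞 K, (b : K) = β := ⟨⟨β, hint⟩, rfl⟩
  have hbq : b ^ q = (Units.fundSystem K i : 𝓞 K) := RingOfIntegers.ext
    ((map_pow (algebraMap (𝓞 K) K) b q).trans ((congrArg (· ^ q) hb).trans hβ))
  obtain ⟨u, hu⟩ : IsUnit b := (isUnit_pow_iff hq.ne_zero).1 (hbq ▸ Units.isUnit _)
  have huq : u ^ q = Units.fundSystem K i := Units.ext (by rw [Units.val_pow_eq_pow_val, hu, hbq])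
  obtain ⟨⟨ζ, e⟩, hue, -⟩ := Units.exist_unique_eq_mul_prod K u
  have huniq := (Units.exist_unique_eq_mul_prod K (Units.fundSystem K i)).unique
    (y₁ := (1, Pi.single i 1)) (y₂ := (ζ ^ q, fun j => q * e j)) ?_ ?_
  · have h := congrFun (congrArg Prod.snd huniq) i
    simp only [Pi.single_eq_same] at h
    have h1 : ((q : ℤ)) ∣ 1 := ⟨e i, h⟩
    exact hq.ne_one (Nat.dvd_one.1 (Int.natCast_dvd.1 h1))
  · rw [OneMemClass.coe_one, one_mul, Finset.prod_eq_single i]
    · simp
    · intro j _ hj
      simp [Pi.single_eq_of_ne hj]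
    · simp
  · conv_lhs => rw [← huq, hue, mul_pow, ← Finset.prod_pow]
    rw [SubmonoidClass.coe_pow]
    congr 1
    refine Finset.prod_congr rfl fun j _ => ?_
    rw [← zpow_natCast, ← zpow_mul, mul_comm]

/-- The roots of unity of `K` are those of order dividing `w`, and there is a primitive one. -/
theorem exists_primitive_torsion (K : Type*) [Field K] [NumberField K] :
    ∃ z : (𝓞 K)ˣ, IsPrimitiveRoot ((z : 𝓞 K) : K) (Units.torsionOrder K) := by
  obtain ⟨μ, hμ⟩ := IsCyclic.exists_ofOrder_eq_natCard (α := Units.torsion K)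
  rw [← IsPrimitiveRoot.iff_orderOf, ← IsPrimitiveRoot.coe_submonoidClass_iff,
    ← IsPrimitiveRoot.coe_units_iff] at hμ
  exact ⟨μ.1, hμ.map_of_injective (FaithfulSMul.algebraMap_injective (𝓞 K) K)⟩

omit [NumberField K] in
/-- A root of unity of `K` has order dividing `w`. -/
theorem pow_torsionOrder_eq_one {x : K} {n : ℕ} (hn : n ≠ 0) (h : x ^ n = 1) :
    x ^ Units.torsionOrder K = 1 := by
  obtain ⟨b, hb⟩ : ∃ b : 𝓞 K, (b : K) = x :=
    ⟨⟨x, IsIntegral.of_pow (Nat.pos_of_ne_zero hn) (h ▸ isIntegral_one)⟩, rfl⟩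
  have hbn : b ^ n = 1 := RingOfIntegers.ext
    ((map_pow (algebraMap (𝓞 K) K) b n).trans ((congrArg (· ^ n) hb).trans
      (h.trans (map_one _).symm)))
  obtain ⟨u, hu⟩ : IsUnit b := IsUnit.of_pow_eq_one hbn hn
  have hmem : u ∈ Units.torsion K := (CommGroup.mem_torsion _).2 (isOfFinOrder_iff_pow_eq_one.2
    ⟨n, Nat.pos_of_ne_zero hn,
      Units.ext (by rw [Units.val_pow_eq_pow_val, hu, hbn, Units.val_one])⟩)
  have h2 := congrArg (fun v : Units.torsion K => ((v.1 : 𝓞 K) : K))
    (pow_card_eq_one' (x := (⟨u, hmem⟩ : Units.torsion K)))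
  simp only [SubmonoidClass.coe_pow, Units.val_pow_eq_pow_val, map_pow, hu, hb,
    OneMemClass.coe_one, Units.val_one, map_one] at h2
  exact h2

omit [NumberField K] in
/-- No `q`-th roots of unity for a prime `q ∤ w`. -/
theorem eq_one_of_pow_prime {q : ℕ} (hq : q.Prime) (hqw : ¬ q ∣ Units.torsionOrder K) {x : K}
    (hx : x ^ q = 1) : x = 1 := by
  have h := pow_gcd_eq_one.2 ⟨hx, pow_torsionOrder_eq_one hq.ne_zero hx⟩
  rwa [Nat.Coprime.gcd_eq_one (hq.coprime_iff_not_dvd.2 hqw), pow_one] at h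

/-- A field other than `ℚ` with a real place has infinitely many units. -/
theorem rank_pos_of_real (hreal : 0 < InfinitePlace.nrRealPlaces K)
    (hK : 1 < Module.finrank ℚ K) : 0 < Units.rank K := by
  have h1 := InfinitePlace.card_add_two_mul_card_eq_rank K
  rw [Units.rank, InfinitePlace.card_eq_nrRealPlaces_add_nrComplexPlaces]
  omega

variable {L : Type*} [Field L] [NumberField L] [Algebra K L] [IsGalois K L]

/-- The elements on which the Galois group commutes. -/
def CommOn (x : L) : Prop := ∀ g h : L ≃ₐ[K] L, g (h x) = h (g x)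

omit [NumberField L] [NumberField K] in
/-- **No root where the group commutes.** -/
theorem not_pow_of_commOn [FiniteDimensional K L] {ε : K} (hε0 : ε ≠ 0) {q : ℕ} (hq : q.Prime)
    (hμ : ∀ x : K, x ^ q = 1 → x = 1) (hε : ∀ β : K, β ^ q ≠ ε) {β : L}
    (hcomm : CommOn (K := K) β) : β ^ q ≠ algebraMap K L ε := fun hβ => by
  have hirr := X_pow_sub_C_irreducible_of_prime hq hε
  have hβ0 : β ≠ 0 := fun e => hε0 ((algebraMap K L).injective (by
    rw [← hβ, e, zero_pow hq.ne_zero, map_zero]))
  obtain ⟨g, hg⟩ : ∃ g : L ≃ₐ[K] L, g β ≠ β := by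
    by_contra hall
    push Not at hall
    obtain ⟨r, hr⟩ := IntermediateField.mem_bot.1 ((IsGalois.mem_bot_iff_fixed β).2 hall)
    exact hε r ((algebraMap K L).injective (by rw [map_pow, hr, hβ]))
  obtain ⟨ξ, hξdef⟩ : ∃ ξ, ξ = g β / β := ⟨_, rfl⟩
  have hξq : ξ ^ q = 1 := by
    rw [hξdef, div_pow, ← map_pow, hβ, g.commutes, div_self]
    simpa using hε0
  have hmem : ξ ∈ IntermediateField.adjoin K {β} := by
    rw [← IsGalois.fixedField_fixingSubgroup (IntermediateField.adjoin K {β})]
    rintro ⟨u, hu⟩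
    have huβ : u β = β :=
      (IntermediateField.mem_fixingSubgroup_iff _ _).1 hu _
        (IntermediateField.mem_adjoin_simple_self K β)
    show u ξ = ξ
    rw [hξdef, map_div₀, hcomm u g, huβ]
  have hβfin : Module.finrank K (IntermediateField.adjoin K {β}) = q := by
    rw [IntermediateField.adjoin.finrank (Algebra.IsIntegral.isIntegral β),
      ← minpoly.eq_of_irreducible_of_monic hirr (by simp [hβ]) (monic_X_pow_sub_C _ hq.ne_zero),
      natDegree_X_pow_sub_C]
  have hξint : IsIntegral K ξ := Algebra.IsIntegral.isIntegral ξ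
  have hξ1 : ξ ≠ 1 := fun e => hg ((div_eq_one_iff_eq hβ0).1 (hξdef ▸ e))
  have hlt : Module.finrank K (IntermediateField.adjoin K {ξ}) < q := by
    haveI : NeZero q := ⟨hq.ne_zero⟩
    haveI : Fact q.Prime := ⟨hq⟩
    have hprim : IsPrimitiveRoot ξ q :=
      IsPrimitiveRoot.iff_orderOf.2 (orderOf_eq_prime hξq hξ1)
    have hroot : aeval ξ (cyclotomic q K) = 0 := by
      rw [aeval_def, ← eval_map, map_cyclotomic]
      exact hprim.isRoot_cyclotomic hq.pos
    rw [IntermediateField.adjoin.finrank hξint]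
    refine lt_of_le_of_lt (natDegree_le_of_dvd (minpoly.dvd K ξ hroot) (cyclotomic_ne_zero q K)) ?_
    rw [natDegree_cyclotomic, Nat.totient_prime hq]
    exact Nat.sub_lt hq.pos one_pos
  have hdvd : Module.finrank K (IntermediateField.adjoin K {ξ}) ∣ q :=
    hβfin ▸ IntermediateField.finrank_dvd_of_le_right
      (IntermediateField.adjoin_simple_le_iff.2 hmem)
  rcases (Nat.dvd_prime hq).1 hdvd with h | h
  · obtain ⟨x, hx⟩ := IntermediateField.mem_bot.1 ((IntermediateField.finrank_eq_one_iff.1 h) ▸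
      IntermediateField.mem_adjoin_simple_self K ξ)
    refine hξ1 (hx ▸ ?_)
    rw [hμ x ((algebraMap K L).injective (by rw [map_pow, hx, hξq, map_one])), map_one]
  · exact hlt.ne h

end FA.Weinberger

end
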